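import Mathlib
import Fermat.Agent.S18x.Spec.H26_Spec

/-!
# S34 (W10), stage (G'): existence of a crossing point (helper18)

Setting of `Fermat.Agent.S18x.Spec.H26.h26_spec` (`V ⊆ F` an integrally closed subring, the
charts saturated in `V`), with two proper ideals `P₁`, `P₂` of `V` containing `π₀` such that
`P₁ ∩ P₂ ⊆ π₀ V` (the two components of the special fibre).

* `h18_cross_exists` : one of the two charts has a maximal ideal containing the traces of `P₁`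
  and of `P₂` (a crossing point).  Otherwise the traces are comaximal on both charts and the
  resulting idempotents `(0 on C₁, 1 on C₂)` contradict the connectedness of the special fibre
  (`h26_charts_connected`, i.e. `h18_connected`).
-/

set_option autoImplicit false
set_option linter.style.haveILetI false

open Polynomial

namespace Fermat.Agent.S34x.Cross.H18

open Fermat.Agent.S18x.Spec.H26

section Comax

variable {F : Type*} [Field F]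

/-- A maximal ideal `𝔫` of the subring `B` is a *crossing point* of the ideals `P₁`, `P₂` of `V`
if it contains the traces of both on `B`. -/
def IsCross (B V : Subring F) (P₁ P₂ : Ideal V) (𝔫 : Ideal B) : Prop :=
  (∀ b : B, ∀ hb : (b : F) ∈ V, (⟨(b : F), hb⟩ : V) ∈ P₁ → b ∈ 𝔫) ∧
    (∀ b : B, ∀ hb : (b : F) ∈ V, (⟨(b : F), hb⟩ : V) ∈ P₂ → b ∈ 𝔫)

/-- If no maximal ideal of `B` is a crossing point, the traces of `P₁` and `P₂` on `B` are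
comaximal: there is `e ∈ B` with `e ∈ P₂` and `e - 1 ∈ P₁`. -/
theorem h18_comax_of_no_cross (B V : Subring F) (hBV : B ≤ V) (P₁ P₂ : Ideal V)
    (hno : ¬ ∃ 𝔫 : Ideal B, 𝔫.IsMaximal ∧ IsCross B V P₁ P₂ 𝔫) :
    ∃ e : F, e ∈ B ∧ ∃ he : e ∈ V, (⟨e, he⟩ : V) ∈ P₂ ∧
      (⟨e - 1, V.sub_mem he V.one_mem⟩ : V) ∈ P₁ := by
  set ι : B →+* V := Subring.inclusion hBV with hι
  by_cases htop : Ideal.comap ι P₁ ⊔ Ideal.comap ι P₂ = ⊤
  · have h1 : (1 : B) ∈ Ideal.comap ι P₁ ⊔ Ideal.comap ι P₂ := by rw [htop]; trivial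
    obtain ⟨a, ha, b, hb, hab⟩ := Submodule.mem_sup.mp h1
    refine ⟨(b : F), b.2, hBV b.2, ?_, ?_⟩
    · exact hb
    · have e : (⟨(b : F) - 1, V.sub_mem (hBV b.2) V.one_mem⟩ : V) = - ι a := by
        apply Subtype.ext
        have := congrArg (fun x : B => (x : F)) hab
        simp only [Subring.coe_add, Subring.coe_one] at this
        simp only [hι, Subring.coe_neg, Subring.coe_inclusion]
        rw [← this]; ring
      rw [e]
      exact P₁.neg_mem ha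
  · exfalso
    obtain ⟨𝔫, h𝔫, hle⟩ := Ideal.exists_le_maximal _ htop
    refine hno ⟨𝔫, h𝔫, ?_, ?_⟩
    · intro b hb hbP
      exact hle (Ideal.mem_sup_left (show b ∈ Ideal.comap ι P₁ from hbP))
    · intro b hb hbP
      exact hle (Ideal.mem_sup_right (show b ∈ Ideal.comap ι P₂ from hbP))

end Comax

variable {O F : Type*} [CommRing O] [IsDomain O] [IsIntegrallyClosed O] [IsNoetherianRing O]
  [Field F] [CharZero F] [Algebra O F]

/-- **Existence of a crossing point** on one of the two charts. -/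
theorem h18_cross_exists (π₀ : O) (hπ₀ : Prime π₀) (j j' : F) (hjj' : j * j' = 1)
    (hj : Transcendental O j) (hfinF : H26FinOver O j)
    (V : Subring F) (hVic : ∀ y : F, IsIntegral V y → y ∈ V)
    (hOV : ∀ c : O, algebraMap O F c ∈ V) (hjV : j ∈ V) (hj'V : j' ∈ V)
    (hsat₁ : ∀ v ∈ V, algebraMap O F π₀ * v ∈ chart O j → v ∈ chart O j)
    (hsat₂ : ∀ v ∈ V, algebraMap O F π₀ * v ∈ chart O j' → v ∈ chart O j')
    (hsat₁₂ : ∀ v ∈ V, algebraMap O F π₀ * v ∈ chart₁₂ O j j' → v ∈ chart₁₂ O j j')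
    (hconstF : ∀ x : F, IsIntegral O x → ∃ c : O, algebraMap O F c = x)
    (P₁ P₂ : Ideal V) (hP₁ : P₁ ≠ ⊤) (hP₂ : P₂ ≠ ⊤)
    (hπ₁ : (⟨algebraMap O F π₀, hOV π₀⟩ : V) ∈ P₁)
    (hπ₂ : (⟨algebraMap O F π₀, hOV π₀⟩ : V) ∈ P₂)
    (hcap : ∀ v : V, v ∈ P₁ → v ∈ P₂ → ∃ c ∈ V, (v : F) = algebraMap O F π₀ * c) :
    (∃ 𝔫 : Ideal (chart O j).toSubring, 𝔫.IsMaximal ∧
        IsCross (chart O j).toSubring V P₁ P₂ 𝔫) ∨
      (∃ 𝔫 : Ideal (chart O j').toSubring, 𝔫.IsMaximal ∧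
        IsCross (chart O j').toSubring V P₁ P₂ 𝔫) := by
  have hBV₁ : (chart O j).toSubring ≤ V := by
    intro y hy
    refine h26_closure_le (O := O) {j} V hVic hOV ?_ hy
    intro s hs
    rw [Set.mem_singleton_iff] at hs
    rw [hs]
    exact hjV
  have hBV₂ : (chart O j').toSubring ≤ V := by
    intro y hy
    refine h26_closure_le (O := O) {j'} V hVic hOV ?_ hy
    intro s hs
    rw [Set.mem_singleton_iff] at hs
    rw [hs]
    exact hj'V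
  by_contra hcon
  rw [not_or] at hcon
  obtain ⟨e₁, he₁B, he₁V, he₁P₂, he₁P₁⟩ := h18_comax_of_no_cross _ V hBV₁ P₁ P₂ hcon.1
  obtain ⟨e₂, he₂B, he₂V, he₂P₂, he₂P₁⟩ := h18_comax_of_no_cross _ V hBV₂ P₁ P₂ hcon.2
  -- the three congruences
  have hi₁ : ∃ b ∈ chart O j, e₁ * e₁ - e₁ = algebraMap O F π₀ * b := by
    have hm₁ : (⟨e₁, he₁V⟩ * ⟨e₁ - 1, V.sub_mem he₁V V.one_mem⟩ : V) ∈ P₁ :=
      P₁.mul_mem_left _ he₁P₁
    have hm₂ : (⟨e₁, he₁V⟩ * ⟨e₁ - 1, V.sub_mem he₁V V.one_mem⟩ : V) ∈ P₂ :=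
      P₂.mul_mem_right _ he₁P₂
    obtain ⟨c, hc, hce⟩ := hcap _ hm₁ hm₂
    have hce' : e₁ * e₁ - e₁ = algebraMap O F π₀ * c := by
      rw [← hce]; simp only [Subring.coe_mul]; ring
    refine ⟨c, hsat₁ c hc ?_, hce'⟩
    rw [← hce']
    exact (chart O j).sub_mem ((chart O j).mul_mem he₁B he₁B) he₁B
  have hi₂ : ∃ b ∈ chart O j', e₂ * e₂ - e₂ = algebraMap O F π₀ * b := by
    have hm₁ : (⟨e₂, he₂V⟩ * ⟨e₂ - 1, V.sub_mem he₂V V.one_mem⟩ : V) ∈ P₁ :=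
      P₁.mul_mem_left _ he₂P₁
    have hm₂ : (⟨e₂, he₂V⟩ * ⟨e₂ - 1, V.sub_mem he₂V V.one_mem⟩ : V) ∈ P₂ :=
      P₂.mul_mem_right _ he₂P₂
    obtain ⟨c, hc, hce⟩ := hcap _ hm₁ hm₂
    have hce' : e₂ * e₂ - e₂ = algebraMap O F π₀ * c := by
      rw [← hce]; simp only [Subring.coe_mul]; ring
    refine ⟨c, hsat₂ c hc ?_, hce'⟩
    rw [← hce']
    exact (chart O j').sub_mem ((chart O j').mul_mem he₂B he₂B) he₂B
  have h₁₂ : ∃ b ∈ chart₁₂ O j j', e₁ - e₂ = algebraMap O F π₀ * b := by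
    have hm₂ : (⟨e₁, he₁V⟩ - ⟨e₂, he₂V⟩ : V) ∈ P₂ := P₂.sub_mem he₁P₂ he₂P₂
    have hm₁ : (⟨e₁, he₁V⟩ - ⟨e₂, he₂V⟩ : V) ∈ P₁ := by
      have e : (⟨e₁, he₁V⟩ - ⟨e₂, he₂V⟩ : V) =
          ⟨e₁ - 1, V.sub_mem he₁V V.one_mem⟩ - ⟨e₂ - 1, V.sub_mem he₂V V.one_mem⟩ :=
        Subtype.ext (by simp)
      rw [e]
      exact P₁.sub_mem he₁P₁ he₂P₁
    obtain ⟨c, hc, hce⟩ := hcap _ hm₁ hm₂
    have hce' : e₁ - e₂ = algebraMap O F π₀ * c := by
      rw [← hce]; rfl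
    refine ⟨c, hsat₁₂ c hc ?_, hce'⟩
    rw [← hce']
    exact (chart₁₂ O j j').sub_mem (chart_le_chart₁₂_left O j j' he₁B)
      (chart_le_chart₁₂_right O j j' he₂B)
  have hπmem : ∀ (P : Ideal V), (⟨algebraMap O F π₀, hOV π₀⟩ : V) ∈ P →
      ∀ b ∈ V, ∀ h : algebraMap O F π₀ * b ∈ V, (⟨algebraMap O F π₀ * b, h⟩ : V) ∈ P := by
    intro P hP b hb h
    have e : (⟨algebraMap O F π₀ * b, h⟩ : V) = ⟨algebraMap O F π₀, hOV π₀⟩ * ⟨b, hb⟩ :=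
      Subtype.ext (by simp)
    rw [e]
    exact P.mul_mem_right _ hP
  rcases h26_charts_connected O π₀ hjj' (h26_hfin_of_finOver O hj hfinF)
      (h26_hcap O hjj' hconstF) (h26_hloc O hj π₀ hπ₀) e₁ e₂ he₁B he₂B hi₁ hi₂ h₁₂ with
    ⟨⟨b₁, hb₁, h1⟩, -⟩ | ⟨⟨b₁, hb₁, h1⟩, -⟩
  · -- `e₁ ∈ π V ⊆ P₁` and `e₁ - 1 ∈ P₁`
    apply hP₁
    rw [Ideal.eq_top_iff_one]
    have hm : (⟨e₁, he₁V⟩ : V) ∈ P₁ := by
      have := hπmem P₁ hπ₁ b₁ (hBV₁ hb₁) (h1 ▸ he₁V)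
      convert this using 1
      exact Subtype.ext h1
    have e : (1 : V) = ⟨e₁, he₁V⟩ - ⟨e₁ - 1, V.sub_mem he₁V V.one_mem⟩ :=
      Subtype.ext (by simp)
    rw [e]
    exact P₁.sub_mem hm he₁P₁
  · -- `e₁ - 1 ∈ π V ⊆ P₂` and `e₁ ∈ P₂`
    apply hP₂
    rw [Ideal.eq_top_iff_one]
    have hm : (⟨e₁ - 1, V.sub_mem he₁V V.one_mem⟩ : V) ∈ P₂ := by
      have := hπmem P₂ hπ₂ b₁ (hBV₁ hb₁) (h1 ▸ V.sub_mem he₁V V.one_mem)
      convert this using 1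
      exact Subtype.ext h1
    have e : (1 : V) = ⟨e₁, he₁V⟩ - ⟨e₁ - 1, V.sub_mem he₁V V.one_mem⟩ :=
      Subtype.ext (by simp)
    rw [e]
    exact P₂.sub_mem he₁P₂ hm

end Fermat.Agent.S34x.Cross.H18
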