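import Mathlib

/-!
# S34 (W10), stage (G'): the residue constants at a crossing point (helper18)

`V ⊆ F` a subring with two prime ideals `P₁`, `P₂` (the two components of the special fibre),
`P₁ ∩ P₂ ⊆ π V`; `B ⊆ V` a subring (a chart) and `𝔫₀` a prime ideal of `B` containing
`P₁ ∩ B` and `P₂ ∩ B` (a crossing point); `O` a domain with a primitive `p`-th root of unity in
which `p` is invertible.

* `h18_root_unique` : two `p`-th roots of unity of `O` which are congruent modulo a proper ideal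
  of an `O`-algebra are equal;
* `h18_exists_root` : `v ^ p - 1 ∈ P`, `P` prime, implies `v - ζ ∈ P` for a `p`-th root of unity
  `ζ` of `O`;
* `h18_hunit` : the hypothesis `hunit` of `h26_spec_pow` / `h26_ss_pow` (helper26): every `v ∈ V`
  regular at `𝔫₀` with `v ^ p ≡ 1 mod π V` is congruent modulo `π V` to a `p`-th root of unity of
  `O`.

Mathlib only.
-/

set_option autoImplicit false

open Polynomial

namespace Fermat.Agent.S34x.Cross.H18

section Roots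

variable {O : Type*} [CommRing O] [IsDomain O]

/-- Two `p`-th roots of unity of a domain `O` in which `p` is invertible are equal as soon as
their images in a non-trivial `O`-algebra coincide. -/
theorem h18_root_unique {D : Type*} [CommRing D] [Nontrivial D] (φ : O →+* D) (p : ℕ)
    (hp : 0 < p) (μ₀ : O) (hμ : μ₀ * (p : O) = 1) (a b : O) (ha : a ^ p = 1) (hb : b ^ p = 1)
    (hab : φ a = φ b) : a = b := by
  -- `c := b * a ^ (p - 1)` is a `p`-th root of unity with `φ c = 1`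
  have hpp : p - 1 + 1 = p := Nat.sub_add_cancel hp
  have haa : a * a ^ (p - 1) = 1 := by rw [← pow_succ', hpp, ha]
  set c : O := b * a ^ (p - 1) with hc
  have hcp : c ^ p = 1 := by
    rw [hc, mul_pow, hb, one_mul, ← pow_mul, mul_comm, pow_mul, ha, one_pow]
  have hφc : φ c = 1 := by
    rw [hc, map_mul, ← hab, ← map_mul, haa, map_one]
  by_contra hne
  have hc1 : c ≠ 1 := by
    intro h1
    apply hne
    have : b = b * (a * a ^ (p - 1)) := by rw [haa, mul_one]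
    calc a = 1 * a := (one_mul a).symm
      _ = c * a := by rw [h1]
      _ = b * (a * a ^ (p - 1)) := by rw [hc]; ring
      _ = b := by rw [haa, mul_one]
  have hsum : (∑ i ∈ Finset.range p, c ^ i) = 0 := by
    have h := geom_sum_mul c p
    rw [hcp, sub_self] at h
    rcases mul_eq_zero.mp h with h0 | h0
    · exact h0
    · exact absurd (sub_eq_zero.mp h0) hc1
  have h1 : φ (∑ i ∈ Finset.range p, c ^ i) = (p : D) := by
    rw [map_sum]
    simp only [map_pow, hφc, one_pow, Finset.sum_const, Finset.card_range, nsmul_eq_mul, mul_one]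
  rw [hsum, map_zero] at h1
  have h2 : φ μ₀ * (p : D) = 1 := by
    have := congrArg φ hμ
    rwa [map_mul, map_natCast, map_one] at this
  rw [← h1, mul_zero] at h2
  exact zero_ne_one h2

end Roots

section Unit

variable {O F : Type*} [CommRing O] [IsDomain O] [Field F] [Algebra O F]

/-- `v ^ p - 1 ∈ P` for a prime ideal `P` of `V` implies `v - ζ ∈ P` for a `p`-th root of unity
`ζ` of `O`, if `O` contains a primitive `p`-th root of unity. -/
theorem h18_exists_root (V : Subring F) (hOV : ∀ c : O, algebraMap O F c ∈ V)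
    (P : Ideal V) [P.IsPrime] (p : ℕ) (hp : 0 < p) (ζ₀ : O) (hζ₀ : IsPrimitiveRoot ζ₀ p)
    (v : F) (hv : v ∈ V) (hvp : (⟨v ^ p - 1, V.sub_mem (V.pow_mem hv p) V.one_mem⟩ : V) ∈ P) :
    ∃ ζ : O, ζ ^ p = 1 ∧
      (⟨v - algebraMap O F ζ, V.sub_mem hv (hOV ζ)⟩ : V) ∈ P := by
  set φ : O →+* V := (algebraMap O F).codRestrict V hOV with hφ
  have hfac := congrArg (Polynomial.eval₂ φ (⟨v, hv⟩ : V)) (X_pow_sub_one_eq_prod hp hζ₀)
  rw [Polynomial.eval₂_finsetProd] at hfac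
  simp only [eval₂_sub, eval₂_X_pow, eval₂_one, eval₂_X, eval₂_C] at hfac
  have e1 : ((⟨v, hv⟩ : V) ^ p - 1) =
      (⟨v ^ p - 1, V.sub_mem (V.pow_mem hv p) V.one_mem⟩ : V) := Subtype.ext (by simp)
  have hmem : (∏ ζ ∈ nthRootsFinset p (1 : O), ((⟨v, hv⟩ : V) - φ ζ)) ∈ P := by
    rw [← hfac, e1]
    exact hvp
  obtain ⟨ζ, hζ, hζP⟩ := (Ideal.IsPrime.prod_mem_iff).mp hmem
  refine ⟨ζ, (mem_nthRootsFinset hp (1 : O)).mp hζ, ?_⟩
  have e2 : ((⟨v, hv⟩ : V) - φ ζ) =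
      (⟨v - algebraMap O F ζ, V.sub_mem hv (hOV ζ)⟩ : V) := Subtype.ext (by simp [hφ])
  rw [← e2]
  exact hζP

/-- **The hypothesis `hunit` of `h26_spec_pow` / `h26_ss_pow`** at a crossing point `𝔫₀` of the
chart `B`: `𝔫₀` contains the traces on `B` of the two prime ideals `P₁`, `P₂` of `V`, and
`P₁ ∩ P₂ ⊆ π V`. -/
theorem h18_hunit (B V : Subring F) (hBV : B ≤ V) (hOB : ∀ c : O, algebraMap O F c ∈ B)
    (π : F) (hπV : π ∈ V) (P₁ P₂ : Ideal V) [P₁.IsPrime] [P₂.IsPrime]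
    (hπ₁ : (⟨π, hπV⟩ : V) ∈ P₁) (hπ₂ : (⟨π, hπV⟩ : V) ∈ P₂)
    (hcap : ∀ v : V, v ∈ P₁ → v ∈ P₂ → ∃ c ∈ V, (v : F) = π * c)
    (p : ℕ) (hp : 0 < p) (μ₀ : O) (hμ : μ₀ * (p : O) = 1) (ζ₀ : O) (hζ₀ : IsPrimitiveRoot ζ₀ p)
    (𝔫₀ : Ideal B) [𝔫₀.IsPrime]
    (h₁ : ∀ b : B, (⟨(b : F), hBV b.2⟩ : V) ∈ P₁ → b ∈ 𝔫₀)
    (h₂ : ∀ b : B, (⟨(b : F), hBV b.2⟩ : V) ∈ P₂ → b ∈ 𝔫₀)
    (v : F) (hv : v ∈ V) (hreg : ∃ s : B, s ∉ 𝔫₀ ∧ (s : F) * v ∈ B)
    (hvp : ∃ c ∈ V, v ^ p - 1 = π * c) :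
    ∃ ζ : O, ζ ^ p = 1 ∧ ∃ c ∈ V, v - algebraMap O F ζ = π * c := by
  have hOV : ∀ c : O, algebraMap O F c ∈ V := fun c => hBV (hOB c)
  obtain ⟨c, hc, hvc⟩ := hvp
  -- `v ^ p - 1` lies in both primes
  have hmemP : ∀ P : Ideal V, (⟨π, hπV⟩ : V) ∈ P →
      (⟨v ^ p - 1, V.sub_mem (V.pow_mem hv p) V.one_mem⟩ : V) ∈ P := by
    intro P hπP
    have e : (⟨v ^ p - 1, V.sub_mem (V.pow_mem hv p) V.one_mem⟩ : V) =
        (⟨π, hπV⟩ : V) * ⟨c, hc⟩ := Subtype.ext (by simpa using hvc)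
    rw [e]
    exact P.mul_mem_right _ hπP
  obtain ⟨a, ha, haP⟩ := h18_exists_root V hOV P₁ p hp ζ₀ hζ₀ v hv (hmemP P₁ hπ₁)
  obtain ⟨b, hb, hbP⟩ := h18_exists_root V hOV P₂ p hp ζ₀ hζ₀ v hv (hmemP P₂ hπ₂)
  obtain ⟨s, hs, hsv⟩ := hreg
  -- `s * (v - a)` and `s * (v - b)` lie in `𝔫₀`
  have hsa : (⟨(s : F) * v, hsv⟩ - s * ⟨algebraMap O F a, hOB a⟩ : B) ∈ 𝔫₀ := by
    apply h₁
    have e : (⟨((⟨(s : F) * v, hsv⟩ - s * ⟨algebraMap O F a, hOB a⟩ : B) : F), hBV (Subtype.property _)⟩ : V) =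
        (⟨(s : F), hBV s.2⟩ : V) * ⟨v - algebraMap O F a, V.sub_mem hv (hOV a)⟩ :=
      Subtype.ext (by simp; ring)
    rw [e]
    exact P₁.mul_mem_left _ haP
  have hsb : (⟨(s : F) * v, hsv⟩ - s * ⟨algebraMap O F b, hOB b⟩ : B) ∈ 𝔫₀ := by
    apply h₂
    have e : (⟨((⟨(s : F) * v, hsv⟩ - s * ⟨algebraMap O F b, hOB b⟩ : B) : F), hBV (Subtype.property _)⟩ : V) =
        (⟨(s : F), hBV s.2⟩ : V) * ⟨v - algebraMap O F b, V.sub_mem hv (hOV b)⟩ :=
      Subtype.ext (by simp; ring)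
    rw [e]
    exact P₂.mul_mem_left _ hbP
  -- hence `a - b ∈ 𝔫₀`
  have hab𝔫 : ((⟨algebraMap O F a, hOB a⟩ : B) - ⟨algebraMap O F b, hOB b⟩) ∈ 𝔫₀ := by
    have h := 𝔫₀.sub_mem hsb hsa
    have e : (⟨(s : F) * v, hsv⟩ - s * ⟨algebraMap O F b, hOB b⟩ : B) -
        (⟨(s : F) * v, hsv⟩ - s * ⟨algebraMap O F a, hOB a⟩ : B) =
        s * ((⟨algebraMap O F a, hOB a⟩ : B) - ⟨algebraMap O F b, hOB b⟩) := by ring
    rw [e] at h
    exact ((Ideal.IsPrime.mem_or_mem inferInstance h).resolve_left hs)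
  -- the two roots of unity agree
  have hab : a = b := by
    set ψ : O →+* B := (algebraMap O F).codRestrict B hOB with hψ
    have hne : Nontrivial (B ⧸ 𝔫₀) := Ideal.Quotient.nontrivial_iff.mpr (Ideal.IsPrime.ne_top inferInstance)
    refine h18_root_unique ((Ideal.Quotient.mk 𝔫₀).comp ψ) p hp μ₀ hμ a b ha hb ?_
    rw [RingHom.comp_apply, RingHom.comp_apply]
    apply Ideal.Quotient.eq.mpr
    exact hab𝔫
  subst hab
  obtain ⟨c', hc', hvc'⟩ := hcap _ haP hbP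
  exact ⟨a, ha, c', hc', hvc'⟩

end Unit

end Fermat.Agent.S34x.Cross.H18
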