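import Mathlib
import Fermat.Agent.S18x.Spec.H26_Adapt
import Fermat.Agent.S34x.Cross.H18_Unit
import Fermat.Agent.S34x.Cross.H18_Cross

/-!
# S34 (W10), stage (G'): the crossing-point package (helper18)

* `h18_hconstF_of_hK` : the constants of `F` are `O`, from "`K = Frac O` is algebraically closed
  in `F`" and `O` integrally closed;
* `H18UnitAt B V π 𝔫₀ m` : the hypothesis `hunitK` of the `E`-level step (helper25) at the
  exponent `m`: every `v ∈ V` regular at `𝔫₀` with `v ^ m ≡ 1 mod π V` is congruent modulo `π V`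
  to a unit of `O`;
* `h18_unitAt` : `H18UnitAt` at a crossing point, for every exponent `m > 0` invertible in `O`
  such that `O` contains a primitive `m`-th root of unity;
* `H18Pack O V π₀ j` : a crossing point on the chart `chart O j` (a maximal ideal over `π₀`)
  at which `H18UnitAt` holds for every such exponent;
* `h18_pack` : in the setting of `h26_spec` with two prime ideals `P₁`, `P₂` of `V` over `π₀`
  with `P₁ ∩ P₂ ⊆ π₀ V`: `H18Pack O V π₀ j ∨ H18Pack O V π₀ j'`.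
-/

set_option autoImplicit false
set_option linter.style.haveILetI false
set_option linter.unusedSectionVars false

open Polynomial

namespace Fermat.Agent.S34x.Cross.H18

open Fermat.Agent.S18x.Spec.H26

section Const

variable {O K F : Type*} [CommRing O] [IsDomain O] [IsIntegrallyClosed O] [Field K] [Field F]
  [Algebra O K] [IsFractionRing O K] [Algebra K F] [Algebra O F] [IsScalarTower O K F]

/-- The constants of `F` are `O`. -/
theorem h18_hconstF_of_hK (hK : ∀ y : F, IsAlgebraic K y → y ∈ (algebraMap K F).range)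
    (x : F) (hx : IsIntegral O x) : ∃ c : O, algebraMap O F c = x := by
  have hxK : IsAlgebraic K x := (hx.tower_top (A := K)).isAlgebraic
  obtain ⟨y, rfl⟩ := RingHom.mem_range.mp (hK x hxK)
  have hy : IsIntegral O y :=
    (isIntegral_algHom_iff (IsScalarTower.toAlgHom O K F) (algebraMap K F).injective).mp hx
  obtain ⟨c, hc⟩ := IsIntegrallyClosed.isIntegral_iff.mp hy
  exact ⟨c, by rw [IsScalarTower.algebraMap_apply O K F, hc]⟩

end Const

section Unit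

variable {O F : Type*} [CommRing O] [Field F] [Algebra O F]

/-- The hypothesis `hunitK` at the exponent `m`: every `v ∈ V` regular at `𝔫₀` with
`v ^ m ≡ 1 mod π V` is congruent modulo `π V` to a unit of `O`. -/
def H18UnitAt (O : Type*) [CommRing O] [Algebra O F] (B V : Subring F) (π : F) (𝔫₀ : Ideal B)
    (m : ℕ) : Prop :=
  ∀ v ∈ V, (∃ s : B, s ∉ 𝔫₀ ∧ (s : F) * v ∈ B) → (∃ c ∈ V, v ^ m - 1 = π * c) →
    ∃ ζ ζ' : O, ζ * ζ' = 1 ∧ ∃ c ∈ V, v - algebraMap O F ζ = π * c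

variable [IsDomain O]

/-- **`hunitK` at a crossing point**, any exponent. -/
theorem h18_unitAt (B V : Subring F) (hBV : B ≤ V) (hOB : ∀ c : O, algebraMap O F c ∈ B)
    (π : F) (hπV : π ∈ V) (P₁ P₂ : Ideal V) [P₁.IsPrime] [P₂.IsPrime]
    (hπ₁ : (⟨π, hπV⟩ : V) ∈ P₁) (hπ₂ : (⟨π, hπV⟩ : V) ∈ P₂)
    (hcap : ∀ v : V, v ∈ P₁ → v ∈ P₂ → ∃ c ∈ V, (v : F) = π * c)
    (𝔫₀ : Ideal B) [𝔫₀.IsPrime] (hcross : IsCross B V P₁ P₂ 𝔫₀)
    (m : ℕ) (hm : 0 < m) (μ : O) (hμ : μ * (m : O) = 1) (ζ₀ : O) (hζ₀ : IsPrimitiveRoot ζ₀ m) :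
    H18UnitAt O B V π 𝔫₀ m := by
  intro v hv hreg hvm
  obtain ⟨ζ, hζ, c, hc, hvc⟩ := h18_hunit B V hBV hOB π hπV P₁ P₂ hπ₁ hπ₂ hcap m hm μ hμ ζ₀ hζ₀
    𝔫₀ (fun b => hcross.1 b _) (fun b => hcross.2 b _) v hv hreg hvm
  refine ⟨ζ, ζ ^ (m - 1), ?_, c, hc, hvc⟩
  rw [← pow_succ', Nat.sub_add_cancel hm, hζ]

/-- `μ ^ k` inverts `p ^ k`. -/
theorem h18_inv_pow {p : ℕ} {μ₀ : O} (hμ : μ₀ * (p : O) = 1) (k : ℕ) :
    μ₀ ^ k * ((p ^ k : ℕ) : O) = 1 := by
  rw [Nat.cast_pow, ← mul_pow, hμ, one_pow]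

end Unit

section Pack

variable {O F : Type*} [CommRing O] [IsDomain O] [IsIntegrallyClosed O] [IsNoetherianRing O]
  [Field F] [CharZero F] [Algebra O F]

/-- A crossing point on the chart `chart O j`: a maximal ideal over `π₀` at which `hunitK` holds
for every exponent `m > 0` invertible in `O` with a primitive `m`-th root of unity in `O`. -/
def H18Pack (O : Type*) {F : Type*} [CommRing O] [Field F] [Algebra O F] (V : Subring F)
    (π₀ : O) (j : F) : Prop :=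
  ∃ 𝔫₀ : Ideal (chart O j).toSubring, 𝔫₀.IsMaximal ∧
    (⟨algebraMap O F π₀, (chart O j).algebraMap_mem π₀⟩ : (chart O j).toSubring) ∈ 𝔫₀ ∧
    ∀ m : ℕ, 0 < m → ∀ μ : O, μ * (m : O) = 1 → ∀ ζ₀ : O, IsPrimitiveRoot ζ₀ m →
      H18UnitAt O (chart O j).toSubring V (algebraMap O F π₀) 𝔫₀ m

/-- **The crossing-point package**: on one of the two charts there is a crossing point with
`hunitK` at every exponent. -/
theorem h18_pack (π₀ : O) (hπ₀ : Prime π₀) (j j' : F) (hjj' : j * j' = 1)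
    (hj : Transcendental O j) (hfinF : H26FinOver O j)
    (V : Subring F) (hVic : ∀ y : F, IsIntegral V y → y ∈ V)
    (hOV : ∀ c : O, algebraMap O F c ∈ V) (hjV : j ∈ V) (hj'V : j' ∈ V)
    (hsat₁ : ∀ v ∈ V, algebraMap O F π₀ * v ∈ chart O j → v ∈ chart O j)
    (hsat₂ : ∀ v ∈ V, algebraMap O F π₀ * v ∈ chart O j' → v ∈ chart O j')
    (hsat₁₂ : ∀ v ∈ V, algebraMap O F π₀ * v ∈ chart₁₂ O j j' → v ∈ chart₁₂ O j j')
    (hconstF : ∀ x : F, IsIntegral O x → ∃ c : O, algebraMap O F c = x)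
    (P₁ P₂ : Ideal V) [P₁.IsPrime] [P₂.IsPrime]
    (hπ₁ : (⟨algebraMap O F π₀, hOV π₀⟩ : V) ∈ P₁)
    (hπ₂ : (⟨algebraMap O F π₀, hOV π₀⟩ : V) ∈ P₂)
    (hcap : ∀ v : V, v ∈ P₁ → v ∈ P₂ → ∃ c ∈ V, (v : F) = algebraMap O F π₀ * c) :
    H18Pack O V π₀ j ∨ H18Pack O V π₀ j' := by
  have hBV₁ : (chart O j).toSubring ≤ V := by
    intro y hy
    refine h26_closure_le (O := O) {j} V hVic hOV ?_ hy
    intro s hs
    rw [Set.mem_singleton_iff] at hs
    rw [hs]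
    exact hjV
  have hBV₂ : (chart O j').toSubring ≤ V := by
    intro y hy
    refine h26_closure_le (O := O) {j'} V hVic hOV ?_ hy
    intro s hs
    rw [Set.mem_singleton_iff] at hs
    rw [hs]
    exact hj'V
  rcases h18_cross_exists π₀ hπ₀ j j' hjj' hj hfinF V hVic hOV hjV hj'V hsat₁ hsat₂ hsat₁₂
      hconstF P₁ P₂ (Ideal.IsPrime.ne_top inferInstance) (Ideal.IsPrime.ne_top inferInstance)
      hπ₁ hπ₂ hcap with ⟨𝔫₀, h𝔫₀, hc⟩ | ⟨𝔫₀, h𝔫₀, hc⟩
  · haveI : 𝔫₀.IsPrime := h𝔫₀.isPrime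
    exact Or.inl ⟨𝔫₀, h𝔫₀, hc.1 _ (hOV π₀) hπ₁, fun m hm μ hμ ζ₀ hζ₀ =>
      h18_unitAt (chart O j).toSubring V hBV₁ (fun c => (chart O j).algebraMap_mem c)
        (algebraMap O F π₀) (hOV π₀) P₁ P₂ hπ₁ hπ₂ hcap 𝔫₀ hc m hm μ hμ ζ₀ hζ₀⟩
  · haveI : 𝔫₀.IsPrime := h𝔫₀.isPrime
    exact Or.inr ⟨𝔫₀, h𝔫₀, hc.1 _ (hOV π₀) hπ₁, fun m hm μ hμ ζ₀ hζ₀ =>
      h18_unitAt (chart O j').toSubring V hBV₂ (fun c => (chart O j').algebraMap_mem c)
        (algebraMap O F π₀) (hOV π₀) P₁ P₂ hπ₁ hπ₂ hcap 𝔫₀ hc m hm μ hμ ζ₀ hζ₀⟩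

end Pack

end Fermat.Agent.S34x.Cross.H18
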