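import Mathlib
import Fermat.Agent.S18x.Spec.H26_Adapt
import Fermat.Agent.S34x.Asm.H25_Step
import Fermat.Agent.S34x.Cross.H18_Pack

/-!
# S34 (W10), stage (G'): the devissage step with the crossing point discharged (helper18)

`h18_ss_step` : helper25's `h25_ss_step_tau` (the step `p ^ k → p ^ (k + 1)` for the second
difference `δ² f`, root in the big field `E`) with the hypotheses "`𝔫₀` is a crossing point on
the first chart" and `hunit` DISCHARGED from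

* two prime ideals `P₁`, `P₂` of `V` containing `π₀` with `P₁ ∩ P₂ ⊆ π₀ V` (the two components
  of the special fibre: helper2's `H2Comp.ideal`),
* a primitive `p ^ n`-th root of unity `ζ₀ ∈ O`.

The crossing point comes from the connectedness of the special fibre (`h18_cross_exists`); if it
lies on the second chart, the step is applied with `j` and `j'` exchanged.
-/

set_option autoImplicit false
set_option linter.style.haveILetI false
set_option linter.unusedSectionVars false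

open Polynomial

namespace Fermat.Agent.S34x.Cross.H18

open Fermat.Agent.S18x.Spec.H26 Fermat.Agent.S34x.Loc.H26

variable {O K F E : Type*} [CommRing O] [IsDomain O] [IsIntegrallyClosed O] [IsNoetherianRing O]
  [Field K] [Field F] [CharZero F] [Algebra O K] [IsFractionRing O K] [Algebra K F]
  [Algebra O F] [IsScalarTower O K F] [Field E] [Algebra F E]

/-- Membership in the middle chart does not depend on the order of the two coordinates. -/
theorem h18_mem_chart₁₂_swap (j j' z : F) : z ∈ chart₁₂ O j' j ↔ z ∈ chart₁₂ O j j' := by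
  have h : ∀ {A A' : Subalgebra O F}, A = A' → (IsIntegral A z ↔ IsIntegral A' z) := by
    intro A A' hAA'
    subst hAA'
    rfl
  rw [mem_chart₁₂, mem_chart₁₂]
  exact h (by rw [Set.pair_comm])

/-- **The devissage step for a second difference, root in `E`, two components.** -/
theorem h18_ss_step (π₀ : O) (hπ₀ : Prime π₀) (j j' : F) (hjj' : j * j' = 1)
    (hj : Transcendental O j) (hfinF : H26FinOver O j)
    (V : Subring F) (hVic : ∀ y : F, IsIntegral V y → y ∈ V)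
    (hOV : ∀ c : O, algebraMap O F c ∈ V) (hjV : j ∈ V) (hj'V : j' ∈ V)
    (hπV : ∀ v ∈ V, algebraMap O F π₀ * v ≠ 1)
    (hsat₁ : ∀ v ∈ V, algebraMap O F π₀ * v ∈ chart O j → v ∈ chart O j)
    (hsat₂ : ∀ v ∈ V, algebraMap O F π₀ * v ∈ chart O j' → v ∈ chart O j')
    (hsat₁₂ : ∀ v ∈ V, algebraMap O F π₀ * v ∈ chart₁₂ O j j' → v ∈ chart₁₂ O j j')
    (p : ℕ) (hp : p.Prime) (μ₀ : O) (hμ : μ₀ * (p : O) = 1)
    (hK : ∀ y : F, IsAlgebraic K y → y ∈ (algebraMap K F).range)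
    (hE : ∀ P : K[X], P.Monic → Irreducible P →
      ∃ r : E, aeval r (P.map (algebraMap K F)) = 0)
    (n k : ℕ) (hkn : k < n)
    (ζ₀ : O) (hζ₀ : IsPrimitiveRoot ζ₀ (p ^ n))
    (P₁ P₂ : Ideal V) [P₁.IsPrime] [P₂.IsPrime]
    (hπ₁ : (⟨algebraMap O F π₀, hOV π₀⟩ : V) ∈ P₁)
    (hπ₂ : (⟨algebraMap O F π₀, hOV π₀⟩ : V) ∈ P₂)
    (hcap : ∀ v : V, v ∈ P₁ → v ∈ P₂ → ∃ c ∈ V, (v : F) = algebraMap O F π₀ * c)
    (τ : F ≃+* F) (hτ₁ : ∀ b ∈ chart O j, τ b ∈ chart O j)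
    (hτ₂ : ∀ b ∈ chart O j', τ b ∈ chart O j')
    (ε ε' : O) (hεε' : ε * ε' = 1)
    (hε : τ (algebraMap O F π₀) = algebraMap O F ε * algebraMap O F π₀)
    (htriv : ∀ v ∈ V, ∃ c ∈ V, τ v - v = algebraMap O F π₀ * c)
    (hU : ∀ g : F, g ≠ 0 → τ g / g ∈ V ∧ g / τ g ∈ V)
    (f : F) (hf0 : f ≠ 0)
    (hLP₁ : ∀ 𝔫 : Ideal (chart O j).toSubring, 𝔫.IsMaximal →
      (⟨algebraMap O F π₀, (chart O j).algebraMap_mem π₀⟩ : (chart O j).toSubring) ∈ 𝔫 →
      ∃ d w₀ : F, d ≠ 0 ∧ w₀ ≠ 0 ∧ f = d ^ (p ^ n) * w₀ ∧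
        InLoc (chart O j).toSubring (algebraMap O F π₀) 𝔫 w₀ ∧
        InLoc (chart O j).toSubring (algebraMap O F π₀) 𝔫 w₀⁻¹)
    (hLP₂ : ∀ 𝔫 : Ideal (chart O j').toSubring, 𝔫.IsMaximal →
      (⟨algebraMap O F π₀, (chart O j').algebraMap_mem π₀⟩ : (chart O j').toSubring) ∈ 𝔫 →
      ∃ d w₀ : F, d ≠ 0 ∧ w₀ ≠ 0 ∧ f = d ^ (p ^ n) * w₀ ∧
        InLoc (chart O j').toSubring (algebraMap O F π₀) 𝔫 w₀ ∧
        InLoc (chart O j').toSubring (algebraMap O F π₀) 𝔫 w₀⁻¹)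
    (g : F) (hg : g ^ (p ^ k) = secondDiff τ f) :
    ∃ y : E, y ^ (p ^ (k + 1)) = algebraMap F E (secondDiff τ f) := by
  have hBV₁ : (chart O j).toSubring ≤ V := by
    intro y hy
    refine h26_closure_le (O := O) {j} V hVic hOV ?_ hy
    intro s hs
    rw [Set.mem_singleton_iff] at hs
    rw [hs]
    exact hjV
  have hBV₂ : (chart O j').toSubring ≤ V := by
    intro y hy
    refine h26_closure_le (O := O) {j'} V hVic hOV ?_ hy
    intro s hs
    rw [Set.mem_singleton_iff] at hs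
    rw [hs]
    exact hj'V
  -- the constants of `F`
  have hconstF : ∀ x : F, IsIntegral O x → ∃ c : O, algebraMap O F c = x :=
    h18_hconstF_of_hK (K := K) hK
  -- the primitive `p ^ k`-th root of unity and the inverse of `p ^ k`
  have hpk : 0 < p ^ k := pow_pos hp.pos k
  have hpn : p ^ n = p ^ (n - k) * p ^ k := by
    rw [← pow_add]
    congr 1
    omega
  have hζk : IsPrimitiveRoot (ζ₀ ^ (p ^ (n - k))) (p ^ k) :=
    hζ₀.pow (pow_pos hp.pos n) hpn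
  have hμk : μ₀ ^ k * ((p ^ k : ℕ) : O) = 1 := h18_inv_pow hμ k
  rcases h18_cross_exists π₀ hπ₀ j j' hjj' hj hfinF V hVic hOV hjV hj'V hsat₁ hsat₂ hsat₁₂
      hconstF P₁ P₂ (Ideal.IsPrime.ne_top inferInstance) (Ideal.IsPrime.ne_top inferInstance)
      hπ₁ hπ₂ hcap with ⟨𝔫₀, h𝔫₀, hc⟩ | ⟨𝔫₀, h𝔫₀, hc⟩
  · haveI : 𝔫₀.IsPrime := h𝔫₀.isPrime
    exact Fermat.Agent.S34x.Asm.H25.h25_ss_step_tau (K := K) (E := E) π₀ hπ₀ j j' hjj' hj hfinF
      V hVic hOV hjV hj'V hπV hsat₁ hsat₂ hsat₁₂ p hp μ₀ hμ hK hE n k hkn 𝔫₀ h𝔫₀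
      (hc.1 _ (hOV π₀) hπ₁)
      (fun v hv hreg hvp => h18_hunit (chart O j).toSubring V hBV₁
        (fun c => (chart O j).algebraMap_mem c) (algebraMap O F π₀) (hOV π₀) P₁ P₂ hπ₁ hπ₂ hcap
        (p ^ k) hpk (μ₀ ^ k) hμk _ hζk 𝔫₀ (fun b => hc.1 b _) (fun b => hc.2 b _) v hv hreg hvp)
      τ hτ₁ hτ₂ ε ε' hεε' hε htriv hU f hf0 hLP₁ hLP₂ g hg
  · haveI : 𝔫₀.IsPrime := h𝔫₀.isPrime
    have hsat₂₁ : ∀ v ∈ V, algebraMap O F π₀ * v ∈ chart₁₂ O j' j → v ∈ chart₁₂ O j' j :=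
      fun v hv h => (h18_mem_chart₁₂_swap j j' v).mpr
        (hsat₁₂ v hv ((h18_mem_chart₁₂_swap j j' _).mp h))
    exact Fermat.Agent.S34x.Asm.H25.h25_ss_step_tau (K := K) (E := E) π₀ hπ₀ j' j
      (by rw [mul_comm]; exact hjj') (h26_transcendental_inv O hjj' hj)
      (h26_finOver_inv O hjj' hfinF)
      V hVic hOV hj'V hjV hπV hsat₂ hsat₁ hsat₂₁ p hp μ₀ hμ hK hE n k hkn 𝔫₀ h𝔫₀
      (hc.1 _ (hOV π₀) hπ₁)
      (fun v hv hreg hvp => h18_hunit (chart O j').toSubring V hBV₂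
        (fun c => (chart O j').algebraMap_mem c) (algebraMap O F π₀) (hOV π₀) P₁ P₂ hπ₁ hπ₂ hcap
        (p ^ k) hpk (μ₀ ^ k) hμk _ hζk 𝔫₀ (fun b => hc.1 b _) (fun b => hc.2 b _) v hv hreg hvp)
      τ hτ₂ hτ₁ ε ε' hεε' hε htriv hU f hf0 hLP₂ hLP₁ g hg

end Fermat.Agent.S34x.Cross.H18
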