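import Mathlib
import Fermat.Agent.S18x.Dict.H7_KumInst
import Fermat.Agent.S18x.IG.H29_Coord
import Fermat.Agent.S34x.Desc.H12_Inertia
import Fermat.Agent.S34x.Desc.H18_TauCoord
import Fermat.Agent.S34x.Cross.H18_Step

/-!
# S34 (W10), (BASE-PACK) (helper18): the devissage step over a number field, at the level of
modular function fields

`L = ℚ̄`, `A₀` a valuation subring of `L`, `K ⊆ L` a number field, `O = A₀ ∩ K` a discrete
valuation ring, `F = F_K(N) = modularFunctionFieldFullC K N ⊆ K((q))`,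
`E = F_L(N) = modularFunctionFieldBar N` (an `F`-algebra through `iotaK`), `σ` a ring
automorphism of `K` preserving `O`, acting on `F` through the coefficients of the
`q`-expansion (`tauF N σ`), `x = coordM K N x₀ hmem` a base coordinate with integral
`q`-expansion `x₀ = q⁻¹ + …` (the Hauptmodul of level `2` or `3`), `x' = x⁻¹`.

`h18_base_step` : `h18_ss_step` at these data, with all the NON-geometric hypotheses
discharged: `x * x' = 1`, transcendence and finiteness for `x` (helper29's `coord_inputs`),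
`hK`, `hE` (`Dict.H7.h7_hK`, `h7_hE`), `τ` preserves the two charts (`h12_tau_chart` +
`h18_tauF_coordM`), `Prime π₀`, the scalar tower.  What remains are the geometric inputs:
the `V`-package ((A) + (B)), the two components `P₁`, `P₂`, (TRIV), (U), (LP), and the
arithmetic constants `μ₀`, `ζ₀`, `ε`.

The conclusion is the conclusion of the hypothesis `h` of `Desc.H12.h12_stKumSS_of_step`
(with `σ = tauK K τ`).
-/

set_option autoImplicit false
set_option linter.unusedSectionVars false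
set_option linter.style.haveILetI false
set_option synthInstance.maxHeartbeats 400000
set_option maxHeartbeats 1000000

noncomputable section

namespace Fermat.Agent.S34x.Cross.H18

open AlgebraicCurve ModularCurve IntermediateField Polynomial
open Fermat.Agent.S18x.Dict.H20 Fermat.Agent.S18x.Dict.H22 Fermat.Agent.S18x.Dict.H7
open Fermat.Agent.S18x.Spec.H26 Fermat.Agent.S34x.Loc.H26
open Fermat.Agent.S34x.Desc.H12

local notation "Lbar" => AlgebraicClosure ℚ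

variable (A₀ : ValuationSubring Lbar) (N : ℕ) [NeZero N] (K : IntermediateField ℚ Lbar)
  [IsDiscreteValuationRing (A₀.comap (algebraMap ↥K Lbar))]
  [Algebra (A₀.comap (algebraMap ↥K Lbar)) ↥(modularFunctionFieldFullC ↥K N)]
  [IsScalarTower (A₀.comap (algebraMap ↥K Lbar)) ↥K ↥(modularFunctionFieldFullC ↥K N)]

/-- **(BASE-PACK)**: the devissage step `p ^ k → p ^ (k + 1)` for the second difference of a
modular function of level `N` over the number field `K`, root in `F_L(N)`. -/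
theorem h18_base_step_gen (σ : ↥K ≃+* ↥K)
    (hσO : ∀ a ∈ A₀.comap (algebraMap ↥K Lbar), σ a ∈ A₀.comap (algebraMap ↥K Lbar))
    (x x' : ↥(modularFunctionFieldFullC ↥K N)) (hxx' : x * x' = 1)
    (hx : Transcendental (A₀.comap (algebraMap ↥K Lbar)) x)
    (hfin : H26FinOver (A₀.comap (algebraMap ↥K Lbar)) x)
    (hσx : tauF N σ x = x)
    (π₀ : A₀.comap (algebraMap ↥K Lbar)) (hπ₀ : Irreducible π₀)
    (V : Subring ↥(modularFunctionFieldFullC ↥K N))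
    (hVic : ∀ y : ↥(modularFunctionFieldFullC ↥K N), IsIntegral V y → y ∈ V)
    (hOV : ∀ c : A₀.comap (algebraMap ↥K Lbar),
      algebraMap (A₀.comap (algebraMap ↥K Lbar)) ↥(modularFunctionFieldFullC ↥K N) c ∈ V)
    (hxV : x ∈ V)
    (hx'V : x' ∈ V)
    (hπV : ∀ v ∈ V,
      algebraMap (A₀.comap (algebraMap ↥K Lbar)) ↥(modularFunctionFieldFullC ↥K N) π₀ * v ≠ 1)
    (hsat₁ : ∀ v ∈ V,
      algebraMap (A₀.comap (algebraMap ↥K Lbar)) ↥(modularFunctionFieldFullC ↥K N) π₀ * v ∈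
        chart (A₀.comap (algebraMap ↥K Lbar)) x →
      v ∈ chart (A₀.comap (algebraMap ↥K Lbar)) x)
    (hsat₂ : ∀ v ∈ V,
      algebraMap (A₀.comap (algebraMap ↥K Lbar)) ↥(modularFunctionFieldFullC ↥K N) π₀ * v ∈
        chart (A₀.comap (algebraMap ↥K Lbar))
          x' →
      v ∈ chart (A₀.comap (algebraMap ↥K Lbar))
        x')
    (hsat₁₂ : ∀ v ∈ V,
      algebraMap (A₀.comap (algebraMap ↥K Lbar)) ↥(modularFunctionFieldFullC ↥K N) π₀ * v ∈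
        chart₁₂ (A₀.comap (algebraMap ↥K Lbar)) x
          x' →
      v ∈ chart₁₂ (A₀.comap (algebraMap ↥K Lbar)) x
        x')
    (p : ℕ) (hp : p.Prime) (μ₀ : A₀.comap (algebraMap ↥K Lbar))
    (hμ : μ₀ * (p : A₀.comap (algebraMap ↥K Lbar)) = 1)
    (n k : ℕ) (hkn : k < n)
    (ζ₀ : A₀.comap (algebraMap ↥K Lbar)) (hζ₀ : IsPrimitiveRoot ζ₀ (p ^ n))
    (P₁ P₂ : Ideal V) [P₁.IsPrime] [P₂.IsPrime]
    (hπ₁ : (⟨algebraMap (A₀.comap (algebraMap ↥K Lbar)) ↥(modularFunctionFieldFullC ↥K N) π₀,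
      hOV π₀⟩ : V) ∈ P₁)
    (hπ₂ : (⟨algebraMap (A₀.comap (algebraMap ↥K Lbar)) ↥(modularFunctionFieldFullC ↥K N) π₀,
      hOV π₀⟩ : V) ∈ P₂)
    (hcap : ∀ v : V, v ∈ P₁ → v ∈ P₂ → ∃ c ∈ V, (v : ↥(modularFunctionFieldFullC ↥K N)) =
      algebraMap (A₀.comap (algebraMap ↥K Lbar)) ↥(modularFunctionFieldFullC ↥K N) π₀ * c)
    (ε ε' : A₀.comap (algebraMap ↥K Lbar)) (hεε' : ε * ε' = 1)
    (hε : tauF N σ
        (algebraMap (A₀.comap (algebraMap ↥K Lbar)) ↥(modularFunctionFieldFullC ↥K N) π₀) =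
      algebraMap (A₀.comap (algebraMap ↥K Lbar)) ↥(modularFunctionFieldFullC ↥K N) ε *
        algebraMap (A₀.comap (algebraMap ↥K Lbar)) ↥(modularFunctionFieldFullC ↥K N) π₀)
    (htriv : ∀ v ∈ V, ∃ c ∈ V, tauF N σ v - v =
      algebraMap (A₀.comap (algebraMap ↥K Lbar)) ↥(modularFunctionFieldFullC ↥K N) π₀ * c)
    (hU : ∀ g : ↥(modularFunctionFieldFullC ↥K N), g ≠ 0 →
      tauF N σ g / g ∈ V ∧ g / tauF N σ g ∈ V)
    (f : ↥(modularFunctionFieldFullC ↥K N)) (hf0 : f ≠ 0)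
    (hLP₁ : ∀ 𝔫 : Ideal (chart (A₀.comap (algebraMap ↥K Lbar))
        x).toSubring, 𝔫.IsMaximal →
      (⟨algebraMap (A₀.comap (algebraMap ↥K Lbar)) ↥(modularFunctionFieldFullC ↥K N) π₀,
        (chart (A₀.comap (algebraMap ↥K Lbar))
          x).algebraMap_mem π₀⟩ :
        (chart (A₀.comap (algebraMap ↥K Lbar))
          x).toSubring) ∈ 𝔫 →
      ∃ d w₀ : ↥(modularFunctionFieldFullC ↥K N), d ≠ 0 ∧ w₀ ≠ 0 ∧ f = d ^ (p ^ n) * w₀ ∧
        InLoc (chart (A₀.comap (algebraMap ↥K Lbar))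
            x).toSubring
          (algebraMap (A₀.comap (algebraMap ↥K Lbar)) ↥(modularFunctionFieldFullC ↥K N) π₀)
          𝔫 w₀ ∧
        InLoc (chart (A₀.comap (algebraMap ↥K Lbar))
            x).toSubring
          (algebraMap (A₀.comap (algebraMap ↥K Lbar)) ↥(modularFunctionFieldFullC ↥K N) π₀)
          𝔫 w₀⁻¹)
    (hLP₂ : ∀ 𝔫 : Ideal (chart (A₀.comap (algebraMap ↥K Lbar))
        x').toSubring, 𝔫.IsMaximal →
      (⟨algebraMap (A₀.comap (algebraMap ↥K Lbar)) ↥(modularFunctionFieldFullC ↥K N) π₀,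
        (chart (A₀.comap (algebraMap ↥K Lbar))
          x').algebraMap_mem π₀⟩ :
        (chart (A₀.comap (algebraMap ↥K Lbar))
          x').toSubring) ∈ 𝔫 →
      ∃ d w₀ : ↥(modularFunctionFieldFullC ↥K N), d ≠ 0 ∧ w₀ ≠ 0 ∧ f = d ^ (p ^ n) * w₀ ∧
        InLoc (chart (A₀.comap (algebraMap ↥K Lbar))
            x').toSubring
          (algebraMap (A₀.comap (algebraMap ↥K Lbar)) ↥(modularFunctionFieldFullC ↥K N) π₀)
          𝔫 w₀ ∧
        InLoc (chart (A₀.comap (algebraMap ↥K Lbar))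
            x').toSubring
          (algebraMap (A₀.comap (algebraMap ↥K Lbar)) ↥(modularFunctionFieldFullC ↥K N) π₀)
          𝔫 w₀⁻¹)
    (g : ↥(modularFunctionFieldFullC ↥K N))
    (hg : g ^ (p ^ k) = secondDiff (tauF N σ) f) :
    ∃ t : ↥(modularFunctionFieldBar N),
      t ^ (p ^ (k + 1)) = iotaK ↥K N (secondDiff (tauF N σ) f) := by
  letI : Algebra ↥(modularFunctionFieldFullC ↥K N) ↥(modularFunctionFieldBar N) :=
    (iotaK ↥K N).toAlgebra
  have hσx' : tauF N σ x' = x' := by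
    have h : x' = x⁻¹ := eq_inv_of_mul_eq_one_right hxx'
    rw [h, map_inv₀, hσx]
  -- `τ` preserves the image of `O`
  have hτO : ∀ c : A₀.comap (algebraMap ↥K Lbar), ∃ c' : A₀.comap (algebraMap ↥K Lbar),
      ((tauF N σ : ↥(modularFunctionFieldFullC ↥K N) ≃+* ↥(modularFunctionFieldFullC ↥K N)) :
        ↥(modularFunctionFieldFullC ↥K N) →+* ↥(modularFunctionFieldFullC ↥K N))
        (algebraMap (A₀.comap (algebraMap ↥K Lbar)) ↥(modularFunctionFieldFullC ↥K N) c) =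
      algebraMap (A₀.comap (algebraMap ↥K Lbar)) ↥(modularFunctionFieldFullC ↥K N) c' := by
    intro c
    refine ⟨⟨σ (c : ↥K), hσO _ c.2⟩, ?_⟩
    rw [IsScalarTower.algebraMap_apply (A₀.comap (algebraMap ↥K Lbar)) ↥K
      ↥(modularFunctionFieldFullC ↥K N) c,
      IsScalarTower.algebraMap_apply (A₀.comap (algebraMap ↥K Lbar)) ↥K
      ↥(modularFunctionFieldFullC ↥K N) ⟨σ (c : ↥K), hσO _ c.2⟩]
    exact tauF_algebraMap N σ (c : ↥K)
  have hτ₁ : ∀ b ∈ chart (A₀.comap (algebraMap ↥K Lbar))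
      x,
      tauF N σ b ∈ chart (A₀.comap (algebraMap ↥K Lbar))
        x :=
    fun b hb => h12_tau_chart _ _ hσx hτO b hb
  have hτ₂ : ∀ b ∈ chart (A₀.comap (algebraMap ↥K Lbar))
      x',
      tauF N σ b ∈ chart (A₀.comap (algebraMap ↥K Lbar))
        x' :=
    fun b hb => h12_tau_chart _ _ hσx' hτO b hb
  exact h18_ss_step (O := A₀.comap (algebraMap ↥K Lbar)) (K := ↥K)
    (F := ↥(modularFunctionFieldFullC ↥K N)) (E := ↥(modularFunctionFieldBar N))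
    π₀ hπ₀.prime x x' hxx' hx hfin V hVic hOV hxV hx'V hπV hsat₁ hsat₂ hsat₁₂ p hp μ₀ hμ
    (h7_hK N) (fun P hP hirr => h7_hE N K P hP hirr) n k hkn ζ₀ hζ₀ P₁ P₂ hπ₁ hπ₂ hcap
    (tauF N σ) hτ₁ hτ₂ ε ε' hεε' hε htriv hU f hf0 hLP₁ hLP₂ g hg

/-- **(BASE-PACK), coordinate form**: `h18_base_step_gen` for a base coordinate
`x = coordM K N x₀ hmem` with integral `q`-expansion `x₀ = q⁻¹ + …` (helper29's coordinate
package; `coord2`, `coord3` are instances) and `x' = x⁻¹`. -/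
theorem h18_base_step (σ : ↥K ≃+* ↥K)
    (hσO : ∀ a ∈ A₀.comap (algebraMap ↥K Lbar), σ a ∈ A₀.comap (algebraMap ↥K Lbar))
    (x₀ : LaurentSeries ℤ) (hord : x₀.order = -1) (hlead : x₀.coeff (-1) = 1)
    (hmem : coeffMap (Int.castRingHom ↥K) x₀ ∈ modularFunctionFieldFullC ↥K N)
    (π₀ : A₀.comap (algebraMap ↥K Lbar)) (hπ₀ : Irreducible π₀)
    (V : Subring ↥(modularFunctionFieldFullC ↥K N))
    (hVic : ∀ y : ↥(modularFunctionFieldFullC ↥K N), IsIntegral V y → y ∈ V)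
    (hOV : ∀ c : A₀.comap (algebraMap ↥K Lbar),
      algebraMap (A₀.comap (algebraMap ↥K Lbar)) ↥(modularFunctionFieldFullC ↥K N) c ∈ V)
    (hxV : (Fermat.Agent.S18x.IG.H29.coordM ↥K N x₀ hmem) ∈ V)
    (hx'V : (Fermat.Agent.S18x.IG.H29.coordM ↥K N x₀ hmem)⁻¹ ∈ V)
    (hπV : ∀ v ∈ V,
      algebraMap (A₀.comap (algebraMap ↥K Lbar)) ↥(modularFunctionFieldFullC ↥K N) π₀ * v ≠ 1)
    (hsat₁ : ∀ v ∈ V,
      algebraMap (A₀.comap (algebraMap ↥K Lbar)) ↥(modularFunctionFieldFullC ↥K N) π₀ * v ∈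
        chart (A₀.comap (algebraMap ↥K Lbar)) (Fermat.Agent.S18x.IG.H29.coordM ↥K N x₀ hmem) →
      v ∈ chart (A₀.comap (algebraMap ↥K Lbar)) (Fermat.Agent.S18x.IG.H29.coordM ↥K N x₀ hmem))
    (hsat₂ : ∀ v ∈ V,
      algebraMap (A₀.comap (algebraMap ↥K Lbar)) ↥(modularFunctionFieldFullC ↥K N) π₀ * v ∈
        chart (A₀.comap (algebraMap ↥K Lbar))
          (Fermat.Agent.S18x.IG.H29.coordM ↥K N x₀ hmem)⁻¹ →
      v ∈ chart (A₀.comap (algebraMap ↥K Lbar))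
        (Fermat.Agent.S18x.IG.H29.coordM ↥K N x₀ hmem)⁻¹)
    (hsat₁₂ : ∀ v ∈ V,
      algebraMap (A₀.comap (algebraMap ↥K Lbar)) ↥(modularFunctionFieldFullC ↥K N) π₀ * v ∈
        chart₁₂ (A₀.comap (algebraMap ↥K Lbar)) (Fermat.Agent.S18x.IG.H29.coordM ↥K N x₀ hmem)
          (Fermat.Agent.S18x.IG.H29.coordM ↥K N x₀ hmem)⁻¹ →
      v ∈ chart₁₂ (A₀.comap (algebraMap ↥K Lbar)) (Fermat.Agent.S18x.IG.H29.coordM ↥K N x₀ hmem)
        (Fermat.Agent.S18x.IG.H29.coordM ↥K N x₀ hmem)⁻¹)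
    (p : ℕ) (hp : p.Prime) (μ₀ : A₀.comap (algebraMap ↥K Lbar))
    (hμ : μ₀ * (p : A₀.comap (algebraMap ↥K Lbar)) = 1)
    (n k : ℕ) (hkn : k < n)
    (ζ₀ : A₀.comap (algebraMap ↥K Lbar)) (hζ₀ : IsPrimitiveRoot ζ₀ (p ^ n))
    (P₁ P₂ : Ideal V) [P₁.IsPrime] [P₂.IsPrime]
    (hπ₁ : (⟨algebraMap (A₀.comap (algebraMap ↥K Lbar)) ↥(modularFunctionFieldFullC ↥K N) π₀,
      hOV π₀⟩ : V) ∈ P₁)
    (hπ₂ : (⟨algebraMap (A₀.comap (algebraMap ↥K Lbar)) ↥(modularFunctionFieldFullC ↥K N) π₀,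
      hOV π₀⟩ : V) ∈ P₂)
    (hcap : ∀ v : V, v ∈ P₁ → v ∈ P₂ → ∃ c ∈ V, (v : ↥(modularFunctionFieldFullC ↥K N)) =
      algebraMap (A₀.comap (algebraMap ↥K Lbar)) ↥(modularFunctionFieldFullC ↥K N) π₀ * c)
    (ε ε' : A₀.comap (algebraMap ↥K Lbar)) (hεε' : ε * ε' = 1)
    (hε : tauF N σ
        (algebraMap (A₀.comap (algebraMap ↥K Lbar)) ↥(modularFunctionFieldFullC ↥K N) π₀) =
      algebraMap (A₀.comap (algebraMap ↥K Lbar)) ↥(modularFunctionFieldFullC ↥K N) ε *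
        algebraMap (A₀.comap (algebraMap ↥K Lbar)) ↥(modularFunctionFieldFullC ↥K N) π₀)
    (htriv : ∀ v ∈ V, ∃ c ∈ V, tauF N σ v - v =
      algebraMap (A₀.comap (algebraMap ↥K Lbar)) ↥(modularFunctionFieldFullC ↥K N) π₀ * c)
    (hU : ∀ g : ↥(modularFunctionFieldFullC ↥K N), g ≠ 0 →
      tauF N σ g / g ∈ V ∧ g / tauF N σ g ∈ V)
    (f : ↥(modularFunctionFieldFullC ↥K N)) (hf0 : f ≠ 0)
    (hLP₁ : ∀ 𝔫 : Ideal (chart (A₀.comap (algebraMap ↥K Lbar))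
        (Fermat.Agent.S18x.IG.H29.coordM ↥K N x₀ hmem)).toSubring, 𝔫.IsMaximal →
      (⟨algebraMap (A₀.comap (algebraMap ↥K Lbar)) ↥(modularFunctionFieldFullC ↥K N) π₀,
        (chart (A₀.comap (algebraMap ↥K Lbar))
          (Fermat.Agent.S18x.IG.H29.coordM ↥K N x₀ hmem)).algebraMap_mem π₀⟩ :
        (chart (A₀.comap (algebraMap ↥K Lbar))
          (Fermat.Agent.S18x.IG.H29.coordM ↥K N x₀ hmem)).toSubring) ∈ 𝔫 →
      ∃ d w₀ : ↥(modularFunctionFieldFullC ↥K N), d ≠ 0 ∧ w₀ ≠ 0 ∧ f = d ^ (p ^ n) * w₀ ∧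
        InLoc (chart (A₀.comap (algebraMap ↥K Lbar))
            (Fermat.Agent.S18x.IG.H29.coordM ↥K N x₀ hmem)).toSubring
          (algebraMap (A₀.comap (algebraMap ↥K Lbar)) ↥(modularFunctionFieldFullC ↥K N) π₀)
          𝔫 w₀ ∧
        InLoc (chart (A₀.comap (algebraMap ↥K Lbar))
            (Fermat.Agent.S18x.IG.H29.coordM ↥K N x₀ hmem)).toSubring
          (algebraMap (A₀.comap (algebraMap ↥K Lbar)) ↥(modularFunctionFieldFullC ↥K N) π₀)
          𝔫 w₀⁻¹)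
    (hLP₂ : ∀ 𝔫 : Ideal (chart (A₀.comap (algebraMap ↥K Lbar))
        (Fermat.Agent.S18x.IG.H29.coordM ↥K N x₀ hmem)⁻¹).toSubring, 𝔫.IsMaximal →
      (⟨algebraMap (A₀.comap (algebraMap ↥K Lbar)) ↥(modularFunctionFieldFullC ↥K N) π₀,
        (chart (A₀.comap (algebraMap ↥K Lbar))
          (Fermat.Agent.S18x.IG.H29.coordM ↥K N x₀ hmem)⁻¹).algebraMap_mem π₀⟩ :
        (chart (A₀.comap (algebraMap ↥K Lbar))
          (Fermat.Agent.S18x.IG.H29.coordM ↥K N x₀ hmem)⁻¹).toSubring) ∈ 𝔫 →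
      ∃ d w₀ : ↥(modularFunctionFieldFullC ↥K N), d ≠ 0 ∧ w₀ ≠ 0 ∧ f = d ^ (p ^ n) * w₀ ∧
        InLoc (chart (A₀.comap (algebraMap ↥K Lbar))
            (Fermat.Agent.S18x.IG.H29.coordM ↥K N x₀ hmem)⁻¹).toSubring
          (algebraMap (A₀.comap (algebraMap ↥K Lbar)) ↥(modularFunctionFieldFullC ↥K N) π₀)
          𝔫 w₀ ∧
        InLoc (chart (A₀.comap (algebraMap ↥K Lbar))
            (Fermat.Agent.S18x.IG.H29.coordM ↥K N x₀ hmem)⁻¹).toSubring
          (algebraMap (A₀.comap (algebraMap ↥K Lbar)) ↥(modularFunctionFieldFullC ↥K N) π₀)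
          𝔫 w₀⁻¹)
    (g : ↥(modularFunctionFieldFullC ↥K N))
    (hg : g ^ (p ^ k) = secondDiff (tauF N σ) f) :
    ∃ t : ↥(modularFunctionFieldBar N),
      t ^ (p ^ (k + 1)) = iotaK ↥K N (secondDiff (tauF N σ) f) := by
  obtain ⟨hxx', hx, hfin, -, -⟩ :=
    Fermat.Agent.S18x.IG.H29.coord_inputs (A₀.comap (algebraMap ↥K Lbar)) N x₀ hmem hord hlead
  exact h18_base_step_gen A₀ N K σ hσO _ _ hxx' hx hfin
    (Fermat.Agent.S34x.Desc.H18.h18_tauF_coordM ↥K N σ x₀ hmem) π₀ hπ₀ V hVic hOV hxV hx'V hπV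
    hsat₁ hsat₂ hsat₁₂ p hp μ₀ hμ n k hkn ζ₀ hζ₀ P₁ P₂ hπ₁ hπ₂ hcap ε ε' hεε' hε htriv hU f hf0
    hLP₁ hLP₂ g hg

end Fermat.Agent.S34x.Cross.H18
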