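import Mathlib
import Fermat.Agent.S34x.Cross.H18_Base
import Fermat.Agent.S34x.Val.H6_Tau
import Fermat.Agent.S34x.Val.H2_Ideals
import Fermat.Agent.S34x.Sat.H21_SatCoord
import Fermat.Agent.S34x.Loc.H26_LPInst

/-!
# S34 (W10), (BASE-GEOM) (helper18): the devissage step with the geometric stages plugged in

`L = ℚ̄`, `A₀` a valuation subring of `L`, `K ⊆ L` a number field, `O = A₀ ∩ K` a discrete
valuation ring of residue characteristic `q`, `M ∣ N`, `q ∣ N`, `q ∤ M`,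
`F_M ⊆ F_N` the modular function fields over `K`, `σ` a ring automorphism of `K` preserving
`O` and acting trivially on its residue field, `τ = tauF N σ`.

`h18_base_geom` is `h18_base_step` at the two-component ring `V = h6V = W[j_q]` of stage (A)
(helper6 / helper2), with

* the `V`-package (`hVic`, `hOV`, `hxV`, `hx'V`, `hπV`), the two components `P₁`, `P₂`,
  (TRIV), (U) discharged by helper6's instance (`Val/H6_Inst`, `Val/H6_Tau`) and helper2's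
  ideals (`Val/H2_Ideals`),
* (LP) discharged by helper26's `h26_LP_first`, `h26_LP_second`,

for a generic base coordinate `x = coordM K N x₀ hmemN` lying in `F_M`; the saturation triple
is an input (`hsat`), discharged in `h18_base_geom₂`, `h18_base_geom₃` (the Hauptmoduln of
level `2`, `3`) by helper21's `h21_sat_coord2`, `h21_sat_coord3`.

What remains as NAMED HYPOTHESES are exactly the exports which are not closed yet:
`hgen : H6Gen M N q` (stage (GEN)) and `hcomp₁`, `hcomp₂ : H7Comp` on the two charts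
(stage (C)); `hdiv`, `hrat` are handed over by the descent (`Desc.H12.H12StepPack`).
-/

set_option autoImplicit false
set_option linter.unusedSectionVars false
set_option linter.unusedVariables false
set_option linter.style.haveILetI false
set_option synthInstance.maxHeartbeats 400000
set_option maxHeartbeats 1000000

noncomputable section

namespace Fermat.Agent.S34x.Cross.H18

open AlgebraicCurve ModularCurve IntermediateField Polynomial
open Fermat.Agent.S18x.Dict.H20 Fermat.Agent.S18x.Dict.H22 Fermat.Agent.S18x.Dict.H7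
open Fermat.Agent.S18x.Spec.H26 Fermat.Agent.S34x.Loc.H26
open Fermat.Agent.S34x.Desc.H12 Fermat.Agent.S34x.Val.H6 Fermat.Agent.S34x.Val.H2
open Fermat.Agent.S34x.Comp.H7 Fermat.Agent.S18x.Qepo

local notation "Lbar" => AlgebraicClosure ℚ

variable (A₀ : ValuationSubring Lbar) (K : IntermediateField ℚ Lbar)
  [IsDiscreteValuationRing (A₀.comap (algebraMap ↥K Lbar))]
  (M N : ℕ) [NeZero M] [NeZero N] (hMN : M ∣ N) (q : ℕ) [NeZero q] (hq : q.Prime) (hqN : q ∣ N)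
  [Algebra (A₀.comap (algebraMap ↥K Lbar)) ↥(modularFunctionFieldFullC ↥K M)]
  [IsScalarTower (A₀.comap (algebraMap ↥K Lbar)) ↥K ↥(modularFunctionFieldFullC ↥K M)]
  [Algebra (A₀.comap (algebraMap ↥K Lbar)) ↥(modularFunctionFieldFullC ↥K N)]
  [IsScalarTower (A₀.comap (algebraMap ↥K Lbar)) ↥K ↥(modularFunctionFieldFullC ↥K N)]

include hq in
/-- **(BASE-GEOM), generic coordinate**: the devissage step at `V = W[j_q]`, from (GEN),
(SAT) and the component structure of the special fibre on the two charts. -/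
theorem h18_base_geom
    (hq0 : (q : IsLocalRing.ResidueField (A₀.comap (algebraMap ↥K Lbar))) = 0)
    (hgen : H6Gen (K := ↥K) M N q)
    (σ : ↥K ≃+* ↥K)
    (hσO : ∀ a ∈ A₀.comap (algebraMap ↥K Lbar), σ a ∈ A₀.comap (algebraMap ↥K Lbar))
    (hres : ∀ a : A₀.comap (algebraMap ↥K Lbar),
      IsLocalRing.residue (A₀.comap (algebraMap ↥K Lbar))
          (resO (A₀.comap (algebraMap ↥K Lbar)) (σ : ↥K →+* ↥K) hσO a) =
        IsLocalRing.residue (A₀.comap (algebraMap ↥K Lbar)) a)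
    (x₀ : LaurentSeries ℤ) (hord : x₀.order = -1) (hlead : x₀.coeff (-1) = 1)
    (hmemM : coeffMap (Int.castRingHom ↥K) x₀ ∈ modularFunctionFieldFullC ↥K M)
    (hmemN : coeffMap (Int.castRingHom ↥K) x₀ ∈ modularFunctionFieldFullC ↥K N)
    (π₀ : A₀.comap (algebraMap ↥K Lbar)) (hπ₀ : Irreducible π₀)
    (hsat :
      (∀ v ∈ h6V (A₀.comap (algebraMap ↥K Lbar)) M N hMN q hqN,
        algebraMap (A₀.comap (algebraMap ↥K Lbar)) ↥(modularFunctionFieldFullC ↥K N) π₀ * v ∈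
          chart (A₀.comap (algebraMap ↥K Lbar))
            (Fermat.Agent.S18x.IG.H29.coordM ↥K N x₀ hmemN) →
        v ∈ chart (A₀.comap (algebraMap ↥K Lbar))
          (Fermat.Agent.S18x.IG.H29.coordM ↥K N x₀ hmemN)) ∧
      (∀ v ∈ h6V (A₀.comap (algebraMap ↥K Lbar)) M N hMN q hqN,
        algebraMap (A₀.comap (algebraMap ↥K Lbar)) ↥(modularFunctionFieldFullC ↥K N) π₀ * v ∈
          chart (A₀.comap (algebraMap ↥K Lbar))
            (Fermat.Agent.S18x.IG.H29.coordM ↥K N x₀ hmemN)⁻¹ →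
        v ∈ chart (A₀.comap (algebraMap ↥K Lbar))
          (Fermat.Agent.S18x.IG.H29.coordM ↥K N x₀ hmemN)⁻¹) ∧
      (∀ v ∈ h6V (A₀.comap (algebraMap ↥K Lbar)) M N hMN q hqN,
        algebraMap (A₀.comap (algebraMap ↥K Lbar)) ↥(modularFunctionFieldFullC ↥K N) π₀ * v ∈
          chart₁₂ (A₀.comap (algebraMap ↥K Lbar))
            (Fermat.Agent.S18x.IG.H29.coordM ↥K N x₀ hmemN)
            (Fermat.Agent.S18x.IG.H29.coordM ↥K N x₀ hmemN)⁻¹ →
        v ∈ chart₁₂ (A₀.comap (algebraMap ↥K Lbar))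
          (Fermat.Agent.S18x.IG.H29.coordM ↥K N x₀ hmemN)
          (Fermat.Agent.S18x.IG.H29.coordM ↥K N x₀ hmemN)⁻¹))
    (p : ℕ) (hp : p.Prime) (μ₀ : A₀.comap (algebraMap ↥K Lbar))
    (hμ : μ₀ * (p : A₀.comap (algebraMap ↥K Lbar)) = 1)
    (n k : ℕ) (hkn : k < n)
    (ζ₀ : A₀.comap (algebraMap ↥K Lbar)) (hζ₀ : IsPrimitiveRoot ζ₀ (p ^ n))
    (ε ε' : A₀.comap (algebraMap ↥K Lbar)) (hεε' : ε * ε' = 1)
    (hσπ : σ (π₀ : ↥K) = (ε : ↥K) * (π₀ : ↥K))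
    (f : ↥(modularFunctionFieldFullC ↥K N)) (hf0 : f ≠ 0)
    (hcomp₁ : H7Comp (⟨algebraMap (A₀.comap (algebraMap ↥K Lbar))
        ↥(modularFunctionFieldFullC ↥K N) π₀,
      (chart (A₀.comap (algebraMap ↥K Lbar))
        (Fermat.Agent.S18x.IG.H29.coordM ↥K N x₀ hmemN)).algebraMap_mem π₀⟩ :
      (chart (A₀.comap (algebraMap ↥K Lbar))
        (Fermat.Agent.S18x.IG.H29.coordM ↥K N x₀ hmemN)).toSubring))
    (hcomp₂ : H7Comp (⟨algebraMap (A₀.comap (algebraMap ↥K Lbar))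
        ↥(modularFunctionFieldFullC ↥K N) π₀,
      (chart (A₀.comap (algebraMap ↥K Lbar))
        (Fermat.Agent.S18x.IG.H29.coordM ↥K N x₀ hmemN)⁻¹).algebraMap_mem π₀⟩ :
      (chart (A₀.comap (algebraMap ↥K Lbar))
        (Fermat.Agent.S18x.IG.H29.coordM ↥K N x₀ hmemN)⁻¹).toSubring))
    (hdiv : ∀ v : Place ↥K ↥(modularFunctionFieldFullC ↥K N), ((p ^ n : ℕ) : ℤ) ∣ v.ord f)
    (hrat : ∀ v : Place ↥K ↥(modularFunctionFieldFullC ↥K N), v.ord f ≠ 0 →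
      Fermat.Agent.S24.RH.ResidueTrivial v)
    (g : ↥(modularFunctionFieldFullC ↥K N))
    (hg : g ^ (p ^ k) = secondDiff (tauF N σ) f) :
    ∃ t : ↥(modularFunctionFieldBar N),
      t ^ (p ^ (k + 1)) = iotaK ↥K N (secondDiff (tauF N σ) f) := by
  obtain ⟨hxx', hx, hfin, -, -⟩ :=
    Fermat.Agent.S18x.IG.H29.coord_inputs (A₀.comap (algebraMap ↥K Lbar)) N x₀ hmemN hord hlead
  obtain ⟨e₁, e₂, h2, -, -⟩ :=
    h6_two (A₀.comap (algebraMap ↥K Lbar)) M N hMN q hq hqN π₀ hπ₀ hq0 hgen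
  obtain ⟨hsat₁, hsat₂, hsat₁₂⟩ := hsat
  exact h18_base_step A₀ N K σ hσO x₀ hord hlead hmemN π₀ hπ₀
    (h6V (A₀.comap (algebraMap ↥K Lbar)) M N hMN q hqN)
    (h6_hVic (A₀.comap (algebraMap ↥K Lbar)) M N hMN q hq hqN π₀ hπ₀ hq0 hgen)
    (h6_hOV (A₀.comap (algebraMap ↥K Lbar)) M N hMN q hqN)
    (h6_coord_mem (A₀.comap (algebraMap ↥K Lbar)) M N hMN q hqN x₀ hmemM hmemN)
    (h6_coord_inv_mem (A₀.comap (algebraMap ↥K Lbar)) M N hMN q hqN x₀ hlead hmemM hmemN)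
    (h6_hπV (A₀.comap (algebraMap ↥K Lbar)) M N hMN q hq hqN π₀ hπ₀ hq0 hgen)
    hsat₁ hsat₂ hsat₁₂ p hp μ₀ hμ n k hkn ζ₀ hζ₀
    h2.c₁.ideal h2.c₂.ideal h2.c₁.pi_mem_ideal h2.c₂.pi_mem_ideal
    (fun v hv₁ hv₂ => h2.cap v hv₁ hv₂)
    ε ε' hεε'
    (h6_tauF_unif (A₀.comap (algebraMap ↥K Lbar)) N σ π₀ ε hσπ)
    (h6_htriv_inst (A₀.comap (algebraMap ↥K Lbar)) M N hMN q hqN σ hσO hres π₀ hπ₀)
    (h6_hU_inst (A₀.comap (algebraMap ↥K Lbar)) M N hMN q hq hqN σ hσO hres π₀ hπ₀ hq0 hgen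
      ε ε' hεε' hσπ)
    f hf0
    (h26_LP_first (K := ↥K) π₀ hπ₀ hx hfin hcomp₁ (p ^ n) (pow_pos hp.pos n) f hf0 hdiv hrat)
    (h26_LP_second (K := ↥K) π₀ hπ₀ hxx' hx hfin hcomp₂ (p ^ n) (pow_pos hp.pos n) f hf0
      hdiv hrat)
    g hg

section Coord23

open Fermat.Agent.S18x.IG.H28 Fermat.Agent.S34x.Sat.H21

variable [Fact q.Prime]
  [CharP (IsLocalRing.ResidueField (A₀.comap (algebraMap ↥K Lbar))) q]

include hq hMN hqN in
/-- **(BASE-GEOM) for the Hauptmodul of level `2`** (`2 ∣ M`, residue characteristic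
`q ∤ M`): the saturation triple is helper21's `h21_sat_coord2`. -/
theorem h18_base_geom₂ (hM2 : 2 ∣ M) (hN2 : 2 ∣ N) (hqM : ¬ q ∣ M)
    (hgen : H6Gen (K := ↥K) M N q)
    (σ : ↥K ≃+* ↥K)
    (hσO : ∀ a ∈ A₀.comap (algebraMap ↥K Lbar), σ a ∈ A₀.comap (algebraMap ↥K Lbar))
    (hres : ∀ a : A₀.comap (algebraMap ↥K Lbar),
      IsLocalRing.residue (A₀.comap (algebraMap ↥K Lbar))
          (resO (A₀.comap (algebraMap ↥K Lbar)) (σ : ↥K →+* ↥K) hσO a) =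
        IsLocalRing.residue (A₀.comap (algebraMap ↥K Lbar)) a)
    (π₀ : A₀.comap (algebraMap ↥K Lbar)) (hπ₀ : Irreducible π₀)
    (p : ℕ) (hp : p.Prime) (μ₀ : A₀.comap (algebraMap ↥K Lbar))
    (hμ : μ₀ * (p : A₀.comap (algebraMap ↥K Lbar)) = 1)
    (n k : ℕ) (hkn : k < n)
    (ζ₀ : A₀.comap (algebraMap ↥K Lbar)) (hζ₀ : IsPrimitiveRoot ζ₀ (p ^ n))
    (ε ε' : A₀.comap (algebraMap ↥K Lbar)) (hεε' : ε * ε' = 1)
    (hσπ : σ (π₀ : ↥K) = (ε : ↥K) * (π₀ : ↥K))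
    (f : ↥(modularFunctionFieldFullC ↥K N)) (hf0 : f ≠ 0)
    (hcomp₁ : H7Comp (⟨algebraMap (A₀.comap (algebraMap ↥K Lbar))
        ↥(modularFunctionFieldFullC ↥K N) π₀,
      (chart (A₀.comap (algebraMap ↥K Lbar)) (coord2 ↥K N hN2)).algebraMap_mem π₀⟩ :
      (chart (A₀.comap (algebraMap ↥K Lbar)) (coord2 ↥K N hN2)).toSubring))
    (hcomp₂ : H7Comp (⟨algebraMap (A₀.comap (algebraMap ↥K Lbar))
        ↥(modularFunctionFieldFullC ↥K N) π₀,
      (chart (A₀.comap (algebraMap ↥K Lbar)) (coord2 ↥K N hN2)⁻¹).algebraMap_mem π₀⟩ :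
      (chart (A₀.comap (algebraMap ↥K Lbar)) (coord2 ↥K N hN2)⁻¹).toSubring))
    (hdiv : ∀ v : Place ↥K ↥(modularFunctionFieldFullC ↥K N), ((p ^ n : ℕ) : ℤ) ∣ v.ord f)
    (hrat : ∀ v : Place ↥K ↥(modularFunctionFieldFullC ↥K N), v.ord f ≠ 0 →
      Fermat.Agent.S24.RH.ResidueTrivial v)
    (g : ↥(modularFunctionFieldFullC ↥K N))
    (hg : g ^ (p ^ k) = secondDiff (tauF N σ) f) :
    ∃ t : ↥(modularFunctionFieldBar N),
      t ^ (p ^ (k + 1)) = iotaK ↥K N (secondDiff (tauF N σ) f) := by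
  have hq2 : q ≠ 2 := fun h => hqM (h ▸ hM2)
  exact h18_base_geom A₀ K M N hMN q hq hqN (CharP.cast_eq_zero _ q) hgen σ hσO hres
    h2 order_h2 coeff_h2_neg_one (h2_mem_full ↥K M hM2) (h2_mem_full ↥K N hN2) π₀ hπ₀
    (h21_sat_coord2 (A₀.comap (algebraMap ↥K Lbar)) M N hMN hN2 π₀ hπ₀ q hqM hq2
      (h6V (A₀.comap (algebraMap ↥K Lbar)) M N hMN q hqN)
      (h6V_le_gens (A₀.comap (algebraMap ↥K Lbar)) M N hMN q hqN hq)
      (h6_coord_mem (A₀.comap (algebraMap ↥K Lbar)) M N hMN q hqN h2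
        (h2_mem_full ↥K M hM2) (h2_mem_full ↥K N hN2)))
    p hp μ₀ hμ n k hkn ζ₀ hζ₀ ε ε' hεε' hσπ f hf0 hcomp₁ hcomp₂ hdiv hrat g hg

include hq hMN hqN in
/-- **(BASE-GEOM) for the Hauptmodul of level `3`** (`3 ∣ M`, residue characteristic
`q ∤ M`): the saturation triple is helper21's `h21_sat_coord3`. -/
theorem h18_base_geom₃ (hM3 : 3 ∣ M) (hN3 : 3 ∣ N) (hqM : ¬ q ∣ M)
    (hgen : H6Gen (K := ↥K) M N q)
    (σ : ↥K ≃+* ↥K)
    (hσO : ∀ a ∈ A₀.comap (algebraMap ↥K Lbar), σ a ∈ A₀.comap (algebraMap ↥K Lbar))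
    (hres : ∀ a : A₀.comap (algebraMap ↥K Lbar),
      IsLocalRing.residue (A₀.comap (algebraMap ↥K Lbar))
          (resO (A₀.comap (algebraMap ↥K Lbar)) (σ : ↥K →+* ↥K) hσO a) =
        IsLocalRing.residue (A₀.comap (algebraMap ↥K Lbar)) a)
    (π₀ : A₀.comap (algebraMap ↥K Lbar)) (hπ₀ : Irreducible π₀)
    (p : ℕ) (hp : p.Prime) (μ₀ : A₀.comap (algebraMap ↥K Lbar))
    (hμ : μ₀ * (p : A₀.comap (algebraMap ↥K Lbar)) = 1)
    (n k : ℕ) (hkn : k < n)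
    (ζ₀ : A₀.comap (algebraMap ↥K Lbar)) (hζ₀ : IsPrimitiveRoot ζ₀ (p ^ n))
    (ε ε' : A₀.comap (algebraMap ↥K Lbar)) (hεε' : ε * ε' = 1)
    (hσπ : σ (π₀ : ↥K) = (ε : ↥K) * (π₀ : ↥K))
    (f : ↥(modularFunctionFieldFullC ↥K N)) (hf0 : f ≠ 0)
    (hcomp₁ : H7Comp (⟨algebraMap (A₀.comap (algebraMap ↥K Lbar))
        ↥(modularFunctionFieldFullC ↥K N) π₀,
      (chart (A₀.comap (algebraMap ↥K Lbar)) (coord3 ↥K N hN3)).algebraMap_mem π₀⟩ :
      (chart (A₀.comap (algebraMap ↥K Lbar)) (coord3 ↥K N hN3)).toSubring))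
    (hcomp₂ : H7Comp (⟨algebraMap (A₀.comap (algebraMap ↥K Lbar))
        ↥(modularFunctionFieldFullC ↥K N) π₀,
      (chart (A₀.comap (algebraMap ↥K Lbar)) (coord3 ↥K N hN3)⁻¹).algebraMap_mem π₀⟩ :
      (chart (A₀.comap (algebraMap ↥K Lbar)) (coord3 ↥K N hN3)⁻¹).toSubring))
    (hdiv : ∀ v : Place ↥K ↥(modularFunctionFieldFullC ↥K N), ((p ^ n : ℕ) : ℤ) ∣ v.ord f)
    (hrat : ∀ v : Place ↥K ↥(modularFunctionFieldFullC ↥K N), v.ord f ≠ 0 →
      Fermat.Agent.S24.RH.ResidueTrivial v)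
    (g : ↥(modularFunctionFieldFullC ↥K N))
    (hg : g ^ (p ^ k) = secondDiff (tauF N σ) f) :
    ∃ t : ↥(modularFunctionFieldBar N),
      t ^ (p ^ (k + 1)) = iotaK ↥K N (secondDiff (tauF N σ) f) := by
  have hq3 : q ≠ 3 := fun h => hqM (h ▸ hM3)
  exact h18_base_geom A₀ K M N hMN q hq hqN (CharP.cast_eq_zero _ q) hgen σ hσO hres
    h3 order_h3 coeff_h3_neg_one (h3_mem_full ↥K M hM3) (h3_mem_full ↥K N hN3) π₀ hπ₀
    (h21_sat_coord3 (A₀.comap (algebraMap ↥K Lbar)) M N hMN hN3 π₀ hπ₀ q hqM hq3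
      (h6V (A₀.comap (algebraMap ↥K Lbar)) M N hMN q hqN)
      (h6V_le_gens (A₀.comap (algebraMap ↥K Lbar)) M N hMN q hqN hq)
      (h6_coord_mem (A₀.comap (algebraMap ↥K Lbar)) M N hMN q hqN h3
        (h3_mem_full ↥K M hM3) (h3_mem_full ↥K N hN3)))
    p hp μ₀ hμ n k hkn ζ₀ hζ₀ ε ε' hεε' hσπ f hf0 hcomp₁ hcomp₂ hdiv hrat g hg

end Coord23

end Fermat.Agent.S34x.Cross.H18
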