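import Mathlib
import Fermat.Agent.S34x.Cross.H18_BaseGeom
import Fermat.Agent.S34x.Val.H6_GenCore
import Fermat.Agent.S34x.Asm.H29_Easy
import Fermat.Agent.S34x.Desc.H12_K1

/-!
# S34 (W10), (PACK-GEOM) (helper18): the `K`-level one-step pack from stage (C)

`B` a valuation subring of `ℚ̄` over the prime `q`, `τ` an inertia element of `B`, `M` a level
prime to `q`, divisible by `p₀ ∈ {2, 3}`, `p` a prime `≠ q`.

* `H18CompGeom₂ M q hN2 B`, `H18CompGeom₃ M q hN3 B` : **the export of stage (C) at the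
  `K`-level** (canonical instances): for every number field `K ⊆ ℚ̄` for which `O = B ∩ K` is
  a discrete valuation ring and every uniformiser `π₀` of `O`, `H7Comp` holds on the two charts
  of the Hauptmodul of level `2` (resp. `3`) at level `M * q`;
* `h18_pack_geom₂`, `h18_pack_geom₃` : stage (C) ⟹ helper12's `H12StepPack (M * q) p B τ`.
  Everything else - the discrete valuation ring, the residue characteristic, the uniformiser,
  `μ₀`, `ε`, the inertia action, (GEN), stage (A), (SAT), (LP) - is discharged inside.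
-/

set_option autoImplicit false
set_option linter.unusedSectionVars false
set_option linter.unusedVariables false
set_option linter.style.haveILetI false
set_option synthInstance.maxHeartbeats 400000
set_option maxHeartbeats 1000000

noncomputable section

namespace Fermat.Agent.S34x.Cross.H18

open AlgebraicCurve ModularCurve IntermediateField Polynomial
open Fermat.Agent.S18x.Dict.H20 Fermat.Agent.S18x.Dict.H22 Fermat.Agent.S18x.Dict.H23
open Fermat.Agent.S18x.Spec.H26 Fermat.Agent.S18x.IG.H28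
open Fermat.Agent.S34x.Desc.H12 Fermat.Agent.S34x.Val.H6
open Fermat.Agent.S34x.Comp.H7

local notation "Lbar" => AlgebraicClosure ℚ

/-- **The export of stage (C) at the `K`-level, Hauptmodul of level `2`.** -/
def H18CompGeom₂ (N : ℕ) [NeZero N] (hN2 : 2 ∣ N) (B : ValuationSubring Lbar) : Prop :=
  ∀ (K : IntermediateField ℚ Lbar) [FiniteDimensional ℚ ↥K]
    [IsDiscreteValuationRing (B.comap (algebraMap ↥K Lbar))]
    (π₀ : B.comap (algebraMap ↥K Lbar)), Irreducible π₀ →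
    H7Comp (⟨algebraMap (B.comap (algebraMap ↥K Lbar)) ↥(modularFunctionFieldFullC ↥K N) π₀,
        (chart (B.comap (algebraMap ↥K Lbar)) (coord2 ↥K N hN2)).algebraMap_mem π₀⟩ :
      (chart (B.comap (algebraMap ↥K Lbar)) (coord2 ↥K N hN2)).toSubring) ∧
    H7Comp (⟨algebraMap (B.comap (algebraMap ↥K Lbar)) ↥(modularFunctionFieldFullC ↥K N) π₀,
        (chart (B.comap (algebraMap ↥K Lbar)) (coord2 ↥K N hN2)⁻¹).algebraMap_mem π₀⟩ :
      (chart (B.comap (algebraMap ↥K Lbar)) (coord2 ↥K N hN2)⁻¹).toSubring)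

/-- **The export of stage (C) at the `K`-level, Hauptmodul of level `3`.** -/
def H18CompGeom₃ (N : ℕ) [NeZero N] (hN3 : 3 ∣ N) (B : ValuationSubring Lbar) : Prop :=
  ∀ (K : IntermediateField ℚ Lbar) [FiniteDimensional ℚ ↥K]
    [IsDiscreteValuationRing (B.comap (algebraMap ↥K Lbar))]
    (π₀ : B.comap (algebraMap ↥K Lbar)), Irreducible π₀ →
    H7Comp (⟨algebraMap (B.comap (algebraMap ↥K Lbar)) ↥(modularFunctionFieldFullC ↥K N) π₀,
        (chart (B.comap (algebraMap ↥K Lbar)) (coord3 ↥K N hN3)).algebraMap_mem π₀⟩ :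
      (chart (B.comap (algebraMap ↥K Lbar)) (coord3 ↥K N hN3)).toSubring) ∧
    H7Comp (⟨algebraMap (B.comap (algebraMap ↥K Lbar)) ↥(modularFunctionFieldFullC ↥K N) π₀,
        (chart (B.comap (algebraMap ↥K Lbar)) (coord3 ↥K N hN3)⁻¹).algebraMap_mem π₀⟩ :
      (chart (B.comap (algebraMap ↥K Lbar)) (coord3 ↥K N hN3)⁻¹).toSubring)

/-- A number field inside `ℚ̄` embeds into `ℂ`. -/
theorem h18_exists_emb (K : IntermediateField ℚ Lbar) : Nonempty (↥K →+* ℂ) :=
  ⟨(Fermat.Agent.S18x.Dict.H22.embQbar).comp (algebraMap ↥K Lbar)⟩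

variable (M q p : ℕ) [NeZero (M * q)] (hq : q.Prime) (hp : p.Prime) (hqp : q ≠ p)
  (hqM : ¬ q ∣ M) (B : ValuationSubring Lbar) (hB : B.LiesOverPrime q)
  {τ : Lbar ≃ₐ[ℚ] Lbar} (hτ : τ ∈ B.inertiaSubgroupIn ℚ)

include hq hp hqp hqM hB hτ in
/-- **(PACK-GEOM), `p₀ = 2`**: stage (C) on the two charts of the Hauptmodul of level `2` gives
helper12's one-step pack at level `M * q`. -/
theorem h18_pack_geom₂ (hM2 : 2 ∣ M)
    (hcomp : H18CompGeom₂ (M * q) (Dvd.dvd.mul_right hM2 q) B) :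
    H12StepPack (M * q) p B τ := by
  intro n K hKfin hKn ζ₀ hζ₀ f hf0 hdiv hrat k hk e he
  haveI := hKfin
  haveI := hKn
  haveI : NeZero M := ⟨fun h => NeZero.ne (M * q) (by rw [h, zero_mul])⟩
  haveI : NeZero q := ⟨hq.ne_zero⟩
  haveI : Fact q.Prime := ⟨hq⟩
  haveI : IsDiscreteValuationRing (B.comap (algebraMap ↥K Lbar)) :=
    h23_isDVR_intermediate B hq hB K
  haveI : CharP (IsLocalRing.ResidueField (B.comap (algebraMap ↥K Lbar))) q :=
    h23_charP_residueField B hq hB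
  haveI : IsScalarTower (B.comap (algebraMap ↥K Lbar)) ↥K ↥(modularFunctionFieldFullC ↥K M) :=
    IsScalarTower.of_algebraMap_eq (fun c => rfl)
  haveI : IsScalarTower (B.comap (algebraMap ↥K Lbar)) ↥K
      ↥(modularFunctionFieldFullC ↥K (M * q)) :=
    IsScalarTower.of_algebraMap_eq (fun c => rfl)
  obtain ⟨π₀, hπ₀⟩ := IsDiscreteValuationRing.exists_irreducible (B.comap (algebraMap ↥K Lbar))
  obtain ⟨μ₀, hμ⟩ := Fermat.Agent.S34x.Asm.H29.h29_mu B hq hB K p hp hqp.symm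
  obtain ⟨ε, ε', hεε', hσπ⟩ := h12_tauK_unif B K hτ π₀ hπ₀
  obtain ⟨emb⟩ := h18_exists_emb K
  obtain ⟨hc₁, hc₂⟩ := hcomp K π₀ hπ₀
  exact h18_base_geom₂ B K M (M * q) (Dvd.intro q rfl) q hq (Dvd.intro_left M rfl) hM2
    (Dvd.dvd.mul_right hM2 q) hqM
    (h6Gen' emb M q hq (M * q) (Dvd.intro q rfl) (Dvd.intro_left M rfl) rfl hqM)
    (tauK K τ) (h12_tauK_mem B K hτ) (h12_tauK_res B K hτ) π₀ hπ₀ p hp μ₀ hμ n k hk ζ₀ hζ₀
    ε ε' hεε' hσπ f hf0 hc₁ hc₂ hdiv hrat e he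

include hq hp hqp hqM hB hτ in
/-- **(PACK-GEOM), `p₀ = 3`**: stage (C) on the two charts of the Hauptmodul of level `3` gives
helper12's one-step pack at level `M * q`. -/
theorem h18_pack_geom₃ (hM3 : 3 ∣ M)
    (hcomp : H18CompGeom₃ (M * q) (Dvd.dvd.mul_right hM3 q) B) :
    H12StepPack (M * q) p B τ := by
  intro n K hKfin hKn ζ₀ hζ₀ f hf0 hdiv hrat k hk e he
  haveI := hKfin
  haveI := hKn
  haveI : NeZero M := ⟨fun h => NeZero.ne (M * q) (by rw [h, zero_mul])⟩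
  haveI : NeZero q := ⟨hq.ne_zero⟩
  haveI : Fact q.Prime := ⟨hq⟩
  haveI : IsDiscreteValuationRing (B.comap (algebraMap ↥K Lbar)) :=
    h23_isDVR_intermediate B hq hB K
  haveI : CharP (IsLocalRing.ResidueField (B.comap (algebraMap ↥K Lbar))) q :=
    h23_charP_residueField B hq hB
  haveI : IsScalarTower (B.comap (algebraMap ↥K Lbar)) ↥K ↥(modularFunctionFieldFullC ↥K M) :=
    IsScalarTower.of_algebraMap_eq (fun c => rfl)
  haveI : IsScalarTower (B.comap (algebraMap ↥K Lbar)) ↥K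
      ↥(modularFunctionFieldFullC ↥K (M * q)) :=
    IsScalarTower.of_algebraMap_eq (fun c => rfl)
  obtain ⟨π₀, hπ₀⟩ := IsDiscreteValuationRing.exists_irreducible (B.comap (algebraMap ↥K Lbar))
  obtain ⟨μ₀, hμ⟩ := Fermat.Agent.S34x.Asm.H29.h29_mu B hq hB K p hp hqp.symm
  obtain ⟨ε, ε', hεε', hσπ⟩ := h12_tauK_unif B K hτ π₀ hπ₀
  obtain ⟨emb⟩ := h18_exists_emb K
  obtain ⟨hc₁, hc₂⟩ := hcomp K π₀ hπ₀
  exact h18_base_geom₃ B K M (M * q) (Dvd.intro q rfl) q hq (Dvd.intro_left M rfl) hM3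
    (Dvd.dvd.mul_right hM3 q) hqM
    (h6Gen' emb M q hq (M * q) (Dvd.intro q rfl) (Dvd.intro_left M rfl) rfl hqM)
    (tauK K τ) (h12_tauK_mem B K hτ) (h12_tauK_res B K hτ) π₀ hπ₀ p hp μ₀ hμ n k hk ζ₀ hζ₀
    ε ε' hεε' hσπ f hf0 hc₁ hc₂ hdiv hrat e he

end Fermat.Agent.S34x.Cross.H18
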