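import Mathlib
import Fermat.Agent.S34x.Cross.H18_PackGeom
import Fermat.Agent.S34x.Desc.H16_PackPlug

/-!
# S34 (W10), (FINAL) (helper18): the frozen statement from stage (C) alone

* `H18StComp₂`, `H18StComp₃` : **stage (C) at all levels**: for every level `M` divisible by
  `2` (resp. `3`), every prime `q ∤ M` and every valuation subring `B` of `ℚ̄` over `q`, the
  export `H18CompGeom₂ (M * q) _ B` (resp. `H18CompGeom₃`) of stage (C) at the `K`-level;
* `h18_stPackGeom` : stage (C) ⟹ helper16's `StPackGeom`;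
* `h18_stKumGeom`  : stage (C) ⟹ helper16's `StKumGeom`;
* `h18_s34_of_comp` : stage (C) ⟹ the frozen statement S34 (in the spelling of
  `h16_s34_of_pack`).
-/

set_option autoImplicit false
set_option linter.unusedSectionVars false
set_option linter.unusedVariables false
set_option linter.style.haveILetI false

open ModularCurve

noncomputable section

namespace Fermat.Agent.S34x.Cross.H18

local notation "Lbar" => AlgebraicClosure ℚ

/-- **Stage (C) at all levels, Hauptmodul of level `2`.** -/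
def H18StComp₂ : Prop :=
  ∀ (M q : ℕ) [NeZero (M * q)], q.Prime → ¬ q ∣ M → ∀ (hM2 : 2 ∣ M)
    (B : ValuationSubring Lbar), B.LiesOverPrime q →
    H18CompGeom₂ (M * q) (Dvd.dvd.mul_right hM2 q) B

/-- **Stage (C) at all levels, Hauptmodul of level `3`.** -/
def H18StComp₃ : Prop :=
  ∀ (M q : ℕ) [NeZero (M * q)], q.Prime → ¬ q ∣ M → ∀ (hM3 : 3 ∣ M)
    (B : ValuationSubring Lbar), B.LiesOverPrime q →
    H18CompGeom₃ (M * q) (Dvd.dvd.mul_right hM3 q) B

/-- **Stage (C) ⟹ the `K`-level geometric export** (helper16's `StPackGeom`). -/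
theorem h18_stPackGeom (h₂ : H18StComp₂) (h₃ : H18StComp₃) :
    Fermat.Agent.S34x.Desc.H16.StPackGeom := by
  intro M q p p₀ _ hq hp hqp hqM hp₀ hp₀q hp₀M B hB τ hτ
  rcases hp₀ with rfl | rfl
  · exact h18_pack_geom₂ M q p hq hp hqp hqM B hB hτ hp₀M (h₂ M q hq hqM hp₀M B hB)
  · exact h18_pack_geom₃ M q p hq hp hqp hqM B hB hτ hp₀M (h₃ M q hq hqM hp₀M B hB)

/-- **Stage (C) ⟹ the geometric export of W10** (helper16's `StKumGeom`). -/
theorem h18_stKumGeom (h₂ : H18StComp₂) (h₃ : H18StComp₃) :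
    Fermat.Agent.S34x.Desc.H16.StKumGeom :=
  Fermat.Agent.S34x.Desc.H16.h16_geom_of_pack (h18_stPackGeom h₂ h₃)

section Final

variable {p : ℕ} {N : ℕ} [NeZero N] {S : Finset ℕ}
  {𝒪 : Type} [CommRing 𝒪] [IsDomain 𝒪] [IsDiscreteValuationRing 𝒪]
  [IsAdicComplete (IsLocalRing.maximalIdeal 𝒪) 𝒪]
  {θ : CuspForm.heckeAlgebra N 2 (↑S : Set ℕ) →+* IsLocalRing.ResidueField 𝒪}
  {T : Type} [CommRing T] [IsLocalRing T] [IsNoetherianRing T]
  [IsAdicComplete (IsLocalRing.maximalIdeal T) T] [Algebra 𝒪 T] [IsLocalHom (algebraMap 𝒪 T)]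
  [Module.Finite 𝒪 T] [Module.Free 𝒪 T]

/-- **S34 from stage (C).** -/
theorem h18_s34_of_comp (h₂ : H18StComp₂) (h₃ : H18StComp₃) (hp : p.Prime)
    (hp𝒪 : (p : 𝒪) ∈ IsLocalRing.maximalIdeal 𝒪) (hpS : p ∈ S)
    (hNS : ∀ q : ℕ, q.Prime → q ∣ N → q ∈ S)
    (H : CuspForm.HeckeGaloisRepDatum N (↑S : Set ℕ) 𝒪 θ T)
    (q : ℕ) (hq : q.Prime) (hqp : q ≠ p) (hqN : q ∣ N) (hq2 : ¬ q ^ 2 ∣ N) :
    H.ρ.IsUnipotentOnInertiaAt q :=
  Fermat.Agent.S34x.Desc.H16.h16_s34_of_pack (h18_stPackGeom h₂ h₃) hp hp𝒪 hpS hNS H q hq hqp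
    hqN hq2

end Final

end Fermat.Agent.S34x.Cross.H18
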