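import Mathlib
import Fermat.Agent.S34x.Cross.H18_Final
import Fermat.Agent.S34x.Comp.H7_CompInst
import Fermat.Agent.S34x.Comp.H20_LevelM
import Fermat.Agent.S34x.Comp.H22_CompInputsAlpha
import Fermat.Agent.S34x.Comp.H22_NoethN
import Fermat.Agent.S34x.Comp.H22_BetaFinal
import Fermat.Agent.S34x.Comp.H13_BetaPlug
import Fermat.Agent.S34x.Comp.H15_SepPlug
import Fermat.Agent.S34x.Comp.H4_PinsPlug
import Fermat.Agent.S34x.Sat.H21_SatCoord
import Fermat.Agent.S34x.Val.H6_GenK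

/-!
# S34 (W10), (COMP-GEOM) (helper18): stage (C) at the concrete `K`-level

* `h18_comp_gen₂`, `h18_comp_gen₃` : helper7's `h7_comp_inst_gen` on the two charts of the
  Hauptmodul of level `2` (resp. `3`), with every leaf which is on main plugged in
  (helper22: `hBW`, `hBV`, `hαB`, `hβB`, noetherian charts; helper21: (SAT); helper11: `β`;
  helper13: `hβO`, `hβV`, `hresβ`; helper15: `hsep`; helper4: (PINS)); inputs: (GEN) and the
  level-`M` pack of helper20, in the instance-binder style;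
* `h18_stComp₂ : H18StComp₂`, `h18_stComp₃ : H18StComp₃` : **stage (C) at all levels**, no
  hypothesis left (level-`M` pack := helper20's `h20_levelM_two` / `h20_levelM_three`,
  (GEN) := helper6's `h6GenK`);
* `h18_stPackGeom_final`, `h18_stKumGeom_final`, `h18_s34` : the geometric exports and the
  frozen statement S34, hypothesis-free.
-/

set_option autoImplicit false
set_option linter.unusedSectionVars false
set_option linter.unusedVariables false
set_option linter.style.haveILetI false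
set_option synthInstance.maxHeartbeats 400000
set_option maxHeartbeats 1000000

open ModularCurve Polynomial

noncomputable section

namespace Fermat.Agent.S34x.Cross.H18

open Fermat.Agent.S18x.Dict.H20 Fermat.Agent.S18x.Qepo Fermat.Agent.S34x.Val.H2
  Fermat.Agent.S34x.Val.H6 Fermat.Agent.S28.Asm Fermat.Agent.S18x.Spec.H26
  Fermat.Agent.S18x.IG.H28 Fermat.Agent.S18x.IG.H29
  Fermat.Agent.S34x.Comp.H7 Fermat.Agent.S34x.Comp.H20 Fermat.Agent.S34x.Comp.H22
  Fermat.Agent.S34x.Comp.H13 Fermat.Agent.S34x.Comp.H15 Fermat.Agent.S34x.Comp.H4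
  Fermat.Agent.S34x.Comp.H11B Fermat.Agent.S34x.Sat.H21

local notation "Lbar" => AlgebraicClosure ℚ

section Gen

variable {K : Type} [Field K] [CharZero K] (O : ValuationSubring K) [IsDiscreteValuationRing O]
  (M N : ℕ) [NeZero M] [NeZero N] (hMN : M ∣ N) (q : ℕ) [NeZero q] (hq : q.Prime) (hqN : q ∣ N)
  [Algebra O (FM K M)] [IsScalarTower O K (FM K M)]
  [Algebra O (FM K N)] [IsScalarTower O K (FM K N)]
  (π : O) (hπ : Irreducible π) [Fact q.Prime] [CharP (IsLocalRing.ResidueField O) q]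
  [Finite (IsLocalRing.ResidueField O)] (hqM : ¬ q ∣ M) (hMqN : M * q ∣ N)
  (hO : O.LiesOverPrime q) (hgen : H6Gen (K := K) M N q)

include hMN hq hqN hπ hqM hMqN hO hgen in
/-- **Stage (C) on the two charts of the Hauptmodul of level `2`**, from (GEN) and the
level-`M` pack. -/
theorem h18_comp_gen₂ (hM2 : 2 ∣ M) (hN2 : 2 ∣ N)
    (L₁ : H20LevelM O (gaussValM O M).toSubring (coord2 K M hM2) π)
    (L₂ : H20LevelM O (gaussValM O M).toSubring (coord2 K M hM2)⁻¹ π) :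
    H7Comp (⟨algebraMap O (FM K N) π, (chart O (coord2 K N hN2)).algebraMap_mem π⟩ :
      (chart O (coord2 K N hN2)).toSubring) ∧
    H7Comp (⟨algebraMap O (FM K N) π, (chart O (coord2 K N hN2)⁻¹).algebraMap_mem π⟩ :
      (chart O (coord2 K N hN2)⁻¹).toSubring) := by
  have hq2 : q ≠ 2 := fun h => hqM (h ▸ hM2)
  have hq0 : (q : IsLocalRing.ResidueField O) = 0 := CharP.cast_eq_zero _ q
  have hsat := h21_sat_coord2 O M N hMN hN2 π hπ q hqM hq2 (h6V O M N hMN q hqN)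
    (h6V_le_gens O M N hMN q hqN hq)
    (h6_coord_mem O M N hMN q hqN h2 (h2_mem_full K M hM2) (h2_mem_full K N hN2))
  have hβB := h22_hβB_two_final K O M N q hq hq2 hM2 hN2 hMqN hO
  have hsep := h15_hsep_plug_two O M N hMN q hq hqN π hπ hM2 hN2 hq0 hgen
  have hβO := h13_tau_const O M N q (h11Beta K M N q hMqN) (h11Beta_coe K M N q hMqN)
  have hβV := h13_hβV_plug O M N hMN q hq hqN π hπ hqM hq0 hgen (h11Beta K M N q hMqN)
    (h11Beta_coe K M N q hMqN)
  have hresβ := h13_hresβ_plug O M N hMN q hq hqN π hπ hqM hq0 hgen (h11Beta K M N q hMqN)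
    (h11Beta_coe K M N q hMqN)
  obtain ⟨hn₁, hprime₁, hfracW₁, H₁⟩ := L₁
  obtain ⟨hn₂, hprime₂, hfracW₂, H₂⟩ := L₂
  constructor
  · haveI := hn₁
    haveI := h22_noeth_coord2 O N hN2
    exact h7_comp_inst_gen O M N hMN q hq hqN π hπ (coord2 K M hM2) (coord2 K N hN2) hq0 hgen
      H₁ (h22_hBW O M h2 (h2_mem_full K M hM2)) hprime₁ hfracW₁
      (h22_hBV_inst O M N hMN q hqN π hπ hq h2 (h2_mem_full K M hM2) (h2_mem_full K N hN2)
        hq0 hgen)
      hsat.1
      (h22_hαB O M N hMN h2 (h2_mem_full K M hM2) (h2_mem_full K N hN2))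
      (h11Beta K M N q hMqN) hβO hβB.1 hβV hresβ hsep.1
      (fun _ hc => h4_pins_plug_finite O M N hMN q hq hqN π hπ hc hq0 hqM)
  · haveI := hn₂
    haveI := h22_noeth_coord2_inv O N hN2
    exact h7_comp_inst_gen O M N hMN q hq hqN π hπ (coord2 K M hM2)⁻¹ (coord2 K N hN2)⁻¹ hq0
      hgen H₂ (h22_hBW_inv O M h2 coeff_h2_neg_one (h2_mem_full K M hM2)) hprime₂ hfracW₂
      (h22_hBV_inv_inst O M N hMN q hqN π hπ hq h2 coeff_h2_neg_one (h2_mem_full K M hM2)
        (h2_mem_full K N hN2) hq0 hgen)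
      hsat.2.1
      (h22_hαB_inv O M N hMN h2 (h2_mem_full K M hM2) (h2_mem_full K N hN2))
      (h11Beta K M N q hMqN) hβO hβB.2 hβV hresβ hsep.2
      (fun _ hc => h4_pins_plug_finite O M N hMN q hq hqN π hπ hc hq0 hqM)

include hMN hq hqN hπ hqM hMqN hO hgen in
/-- **Stage (C) on the two charts of the Hauptmodul of level `3`**, from (GEN) and the
level-`M` pack. -/
theorem h18_comp_gen₃ (hM3 : 3 ∣ M) (hN3 : 3 ∣ N)
    (L₁ : H20LevelM O (gaussValM O M).toSubring (coord3 K M hM3) π)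
    (L₂ : H20LevelM O (gaussValM O M).toSubring (coord3 K M hM3)⁻¹ π) :
    H7Comp (⟨algebraMap O (FM K N) π, (chart O (coord3 K N hN3)).algebraMap_mem π⟩ :
      (chart O (coord3 K N hN3)).toSubring) ∧
    H7Comp (⟨algebraMap O (FM K N) π, (chart O (coord3 K N hN3)⁻¹).algebraMap_mem π⟩ :
      (chart O (coord3 K N hN3)⁻¹).toSubring) := by
  have hq3 : q ≠ 3 := fun h => hqM (h ▸ hM3)
  have hq0 : (q : IsLocalRing.ResidueField O) = 0 := CharP.cast_eq_zero _ q
  have hsat := h21_sat_coord3 O M N hMN hN3 π hπ q hqM hq3 (h6V O M N hMN q hqN)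
    (h6V_le_gens O M N hMN q hqN hq)
    (h6_coord_mem O M N hMN q hqN h3 (h3_mem_full K M hM3) (h3_mem_full K N hN3))
  have hβB := h22_hβB_three_final K O M N q hq hq3 hM3 hN3 hMqN hO
  have hsep := h15_hsep_plug_three O M N hMN q hq hqN π hπ hM3 hN3 hq0 hgen
  have hβO := h13_tau_const O M N q (h11Beta K M N q hMqN) (h11Beta_coe K M N q hMqN)
  have hβV := h13_hβV_plug O M N hMN q hq hqN π hπ hqM hq0 hgen (h11Beta K M N q hMqN)
    (h11Beta_coe K M N q hMqN)
  have hresβ := h13_hresβ_plug O M N hMN q hq hqN π hπ hqM hq0 hgen (h11Beta K M N q hMqN)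
    (h11Beta_coe K M N q hMqN)
  obtain ⟨hn₁, hprime₁, hfracW₁, H₁⟩ := L₁
  obtain ⟨hn₂, hprime₂, hfracW₂, H₂⟩ := L₂
  constructor
  · haveI := hn₁
    haveI := h22_noeth_coord3 O N hN3
    exact h7_comp_inst_gen O M N hMN q hq hqN π hπ (coord3 K M hM3) (coord3 K N hN3) hq0 hgen
      H₁ (h22_hBW O M h3 (h3_mem_full K M hM3)) hprime₁ hfracW₁
      (h22_hBV_inst O M N hMN q hqN π hπ hq h3 (h3_mem_full K M hM3) (h3_mem_full K N hN3)
        hq0 hgen)
      hsat.1
      (h22_hαB O M N hMN h3 (h3_mem_full K M hM3) (h3_mem_full K N hN3))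
      (h11Beta K M N q hMqN) hβO hβB.1 hβV hresβ hsep.1
      (fun _ hc => h4_pins_plug_finite O M N hMN q hq hqN π hπ hc hq0 hqM)
  · haveI := hn₂
    haveI := h22_noeth_coord3_inv O N hN3
    exact h7_comp_inst_gen O M N hMN q hq hqN π hπ (coord3 K M hM3)⁻¹ (coord3 K N hN3)⁻¹ hq0
      hgen H₂ (h22_hBW_inv O M h3 coeff_h3_neg_one (h3_mem_full K M hM3)) hprime₂ hfracW₂
      (h22_hBV_inv_inst O M N hMN q hqN π hπ hq h3 coeff_h3_neg_one (h3_mem_full K M hM3)
        (h3_mem_full K N hN3) hq0 hgen)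
      hsat.2.1
      (h22_hαB_inv O M N hMN h3 (h3_mem_full K M hM3) (h3_mem_full K N hN3))
      (h11Beta K M N q hMqN) hβO hβB.2 hβV hresβ hsep.2
      (fun _ hc => h4_pins_plug_finite O M N hMN q hq hqN π hπ hc hq0 hqM)

end Gen

/-! ### The concrete `K`-level -/

open Fermat.Agent.S18x.Dict.H23

/-- **Stage (C) at all levels, Hauptmodul of level `2`.** -/
theorem h18_stComp₂ : H18StComp₂ := by
  intro M q _ hq hqM hM2 B hB K _ _ π₀ hπ₀
  haveI : NeZero M := ⟨fun h => NeZero.ne (M * q) (by rw [h, zero_mul])⟩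
  haveI : NeZero q := ⟨hq.ne_zero⟩
  haveI : Fact q.Prime := ⟨hq⟩
  haveI : CharP (IsLocalRing.ResidueField (B.comap (algebraMap ↥K Lbar))) q :=
    h23_charP_residueField B hq hB
  haveI : Finite (IsLocalRing.ResidueField (B.comap (algebraMap ↥K Lbar))) :=
    h23_finite_residueField_intermediate B hq hB K
  haveI : IsScalarTower (B.comap (algebraMap ↥K Lbar)) ↥K ↥(modularFunctionFieldFullC ↥K M) :=
    IsScalarTower.of_algebraMap_eq (fun c => rfl)
  haveI : IsScalarTower (B.comap (algebraMap ↥K Lbar)) ↥K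
      ↥(modularFunctionFieldFullC ↥K (M * q)) :=
    IsScalarTower.of_algebraMap_eq (fun c => rfl)
  have hq2 : q ≠ 2 := fun h => hqM (h ▸ hM2)
  have L := h20_levelM_two B hq hB M hq2 hM2 hqM K π₀ hπ₀
  exact h18_comp_gen₂ (B.comap (algebraMap ↥K Lbar)) M (M * q) (Dvd.intro q rfl) q hq
    (Dvd.intro_left M rfl) π₀ hπ₀ hqM (dvd_refl _) (h23_liesOver_comap B hB)
    (h6GenK K M q hq (M * q) (Dvd.intro q rfl) (Dvd.intro_left M rfl) rfl hqM)
    hM2 (Dvd.dvd.mul_right hM2 q) L.1 L.2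

/-- **Stage (C) at all levels, Hauptmodul of level `3`.** -/
theorem h18_stComp₃ : H18StComp₃ := by
  intro M q _ hq hqM hM3 B hB K _ _ π₀ hπ₀
  haveI : NeZero M := ⟨fun h => NeZero.ne (M * q) (by rw [h, zero_mul])⟩
  haveI : NeZero q := ⟨hq.ne_zero⟩
  haveI : Fact q.Prime := ⟨hq⟩
  haveI : CharP (IsLocalRing.ResidueField (B.comap (algebraMap ↥K Lbar))) q :=
    h23_charP_residueField B hq hB
  haveI : Finite (IsLocalRing.ResidueField (B.comap (algebraMap ↥K Lbar))) :=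
    h23_finite_residueField_intermediate B hq hB K
  haveI : IsScalarTower (B.comap (algebraMap ↥K Lbar)) ↥K ↥(modularFunctionFieldFullC ↥K M) :=
    IsScalarTower.of_algebraMap_eq (fun c => rfl)
  haveI : IsScalarTower (B.comap (algebraMap ↥K Lbar)) ↥K
      ↥(modularFunctionFieldFullC ↥K (M * q)) :=
    IsScalarTower.of_algebraMap_eq (fun c => rfl)
  have hq3 : q ≠ 3 := fun h => hqM (h ▸ hM3)
  have L := h20_levelM_three B hq hB M hq3 hM3 hqM K π₀ hπ₀
  exact h18_comp_gen₃ (B.comap (algebraMap ↥K Lbar)) M (M * q) (Dvd.intro q rfl) q hq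
    (Dvd.intro_left M rfl) π₀ hπ₀ hqM (dvd_refl _) (h23_liesOver_comap B hB)
    (h6GenK K M q hq (M * q) (Dvd.intro q rfl) (Dvd.intro_left M rfl) rfl hqM)
    hM3 (Dvd.dvd.mul_right hM3 q) L.1 L.2

/-- **The `K`-level geometric export of W10**, hypothesis-free. -/
theorem h18_stPackGeom_final : Fermat.Agent.S34x.Desc.H16.StPackGeom :=
  h18_stPackGeom h18_stComp₂ h18_stComp₃

/-- **The geometric export of W10**, hypothesis-free. -/
theorem h18_stKumGeom_final : Fermat.Agent.S34x.Desc.H16.StKumGeom :=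
  h18_stKumGeom h18_stComp₂ h18_stComp₃

section Final

variable {p : ℕ} {N : ℕ} [NeZero N] {S : Finset ℕ}
  {𝒪 : Type} [CommRing 𝒪] [IsDomain 𝒪] [IsDiscreteValuationRing 𝒪]
  [IsAdicComplete (IsLocalRing.maximalIdeal 𝒪) 𝒪]
  {θ : CuspForm.heckeAlgebra N 2 (↑S : Set ℕ) →+* IsLocalRing.ResidueField 𝒪}
  {T : Type} [CommRing T] [IsLocalRing T] [IsNoetherianRing T]
  [IsAdicComplete (IsLocalRing.maximalIdeal T) T] [Algebra 𝒪 T] [IsLocalHom (algebraMap 𝒪 T)]
  [Module.Finite 𝒪 T] [Module.Free 𝒪 T]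

/-- **S34**, in the spelling of `h16_s34_of_pack`. -/
theorem h18_s34 (hp : p.Prime)
    (hp𝒪 : (p : 𝒪) ∈ IsLocalRing.maximalIdeal 𝒪) (hpS : p ∈ S)
    (hNS : ∀ q : ℕ, q.Prime → q ∣ N → q ∈ S)
    (H : CuspForm.HeckeGaloisRepDatum N (↑S : Set ℕ) 𝒪 θ T)
    (q : ℕ) (hq : q.Prime) (hqp : q ≠ p) (hqN : q ∣ N) (hq2 : ¬ q ^ 2 ∣ N) :
    H.ρ.IsUnipotentOnInertiaAt q :=
  h18_s34_of_comp h18_stComp₂ h18_stComp₃ hp hp𝒪 hpS hNS H q hq hqp hqN hq2

end Final

end Fermat.Agent.S34x.Cross.H18
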