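import Mathlib

/-!
# S34 (W10), stage (G'): the prime ideal of a subring cut out by a valuation subring (helper18)

`V ⊆ F` a subring contained in a valuation subring `W` of `F`:

* `h18TraceIdeal V W hVW` : the ideal `{v ∈ V | v` is a non-unit of `W}` of `V`;
* it is prime (`h18TraceIdeal_isPrime`).

Mathlib only.
-/

set_option autoImplicit false

namespace Fermat.Agent.S34x.Cross.H18

variable {F : Type*} [Field F]

/-- The trace on the subring `V` of the maximal ideal of the valuation subring `W ⊇ V`. -/
def h18TraceIdeal (V : Subring F) (W : ValuationSubring F) (hVW : V ≤ W.toSubring) : Ideal V where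
  carrier := {v | (v : F) ∈ W.nonunits}
  add_mem' := by
    intro a b ha hb
    rw [Set.mem_ofPred_eq, ValuationSubring.mem_nonunits_iff] at ha hb ⊢
    rw [Subring.coe_add]
    exact W.valuation.map_add_lt ha hb
  zero_mem' := by
    rw [Set.mem_ofPred_eq, ValuationSubring.mem_nonunits_iff, Subring.coe_zero, map_zero]
    exact zero_lt_one
  smul_mem' := by
    intro r a ha
    rw [Set.mem_ofPred_eq, ValuationSubring.mem_nonunits_iff] at ha ⊢
    have hr : W.valuation (r : F) ≤ 1 := (W.valuation_le_one_iff _).mpr (hVW r.2)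
    rw [smul_eq_mul, Subring.coe_mul, map_mul]
    exact mul_lt_of_le_one_of_lt hr ha

theorem h18_mem_traceIdeal (V : Subring F) (W : ValuationSubring F) (hVW : V ≤ W.toSubring)
    (v : V) : v ∈ h18TraceIdeal V W hVW ↔ (v : F) ∈ W.nonunits := Iff.rfl

instance h18TraceIdeal_isPrime (V : Subring F) (W : ValuationSubring F)
    (hVW : V ≤ W.toSubring) : (h18TraceIdeal V W hVW).IsPrime := by
  refine ⟨?_, ?_⟩
  · intro htop
    have h1 : (1 : V) ∈ h18TraceIdeal V W hVW := by rw [htop]; trivial
    rw [h18_mem_traceIdeal, ValuationSubring.mem_nonunits_iff, Subring.coe_one, map_one] at h1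
    exact lt_irrefl _ h1
  · intro a b hab
    rw [h18_mem_traceIdeal, ValuationSubring.mem_nonunits_iff, Subring.coe_mul, map_mul] at hab
    rw [h18_mem_traceIdeal, h18_mem_traceIdeal, ValuationSubring.mem_nonunits_iff,
      ValuationSubring.mem_nonunits_iff]
    have ha : W.valuation (a : F) ≤ 1 := (W.valuation_le_one_iff _).mpr (hVW a.2)
    have hb : W.valuation (b : F) ≤ 1 := (W.valuation_le_one_iff _).mpr (hVW b.2)
    by_contra hcon
    rw [not_or, not_lt, not_lt] at hcon
    have ha1 : W.valuation (a : F) = 1 := le_antisymm ha hcon.1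
    have hb1 : W.valuation (b : F) = 1 := le_antisymm hb hcon.2
    rw [ha1, hb1, one_mul] at hab
    exact lt_irrefl _ hab

end Fermat.Agent.S34x.Cross.H18
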