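import Mathlib
import Fermat.Agent.S34x.Loc.H26_SSPow
import Fermat.Agent.S34x.Cross.H18_Unit
import Fermat.Agent.S34x.Cross.H18_Cross
import Fermat.Agent.S34x.Cross.H18_Val

/-!
# S34 (W10), stage (G'): the second-difference theorem at prime powers, two components
(helper18)

`h18_ss_pow` : helper26's `h26_ss_pow` with the two hypotheses "`𝔫₀` is a crossing point on the
first chart" and `hunit` DISCHARGED, from

* two prime ideals `P₁`, `P₂` of `V` containing `π₀` with `P₁ ∩ P₂ ⊆ π₀ V` (the two components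
  of the special fibre; `P₁ = P₂` is allowed),
* a primitive `p`-th root of unity `ζ₀ ∈ O`,
* `hconstF` : the elements of `F` integral over `O` are in `O`,
* `hj'`, `hfinF'` : the symmetric forms of `hj`, `hfinF` for `j' = j⁻¹` (used when the crossing
  point produced by the connectedness lemma lies on the second chart).

`h18_ss_pow_val` : the same with the two components given by valuation subrings `V₁`, `V₂ ⊇ V`.
-/

set_option autoImplicit false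
set_option linter.style.haveILetI false

open Polynomial

namespace Fermat.Agent.S34x.Cross.H18

open Fermat.Agent.S18x.Spec.H26 Fermat.Agent.S34x.Loc.H26

variable {O F : Type*} [CommRing O] [IsDomain O] [IsIntegrallyClosed O] [IsNoetherianRing O]
  [Field F] [CharZero F] [Algebra O F]

omit [IsDomain O] [IsIntegrallyClosed O] [IsNoetherianRing O] [CharZero F] in
theorem h18_isIntegral_congr {A A' : Subalgebra O F} (h : A = A') (z : F) :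
    IsIntegral A z ↔ IsIntegral A' z := by
  subst h
  rfl

omit [IsDomain O] [IsIntegrallyClosed O] [IsNoetherianRing O] [CharZero F] in
theorem h18_mem_chart₁₂_comm (j j' z : F) : z ∈ chart₁₂ O j' j ↔ z ∈ chart₁₂ O j j' := by
  rw [mem_chart₁₂, mem_chart₁₂]
  exact h18_isIntegral_congr (by rw [Set.pair_comm]) z

/-- **The abstract second-difference theorem at prime powers, two components.** -/
theorem h18_ss_pow (π₀ : O) (hπ₀ : Prime π₀) (j j' : F) (hjj' : j * j' = 1)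
    (hj : Transcendental O j) (hfinF : H26FinOver O j)
    (hj' : Transcendental O j') (hfinF' : H26FinOver O j')
    (V : Subring F) (hVic : ∀ y : F, IsIntegral V y → y ∈ V)
    (hOV : ∀ c : O, algebraMap O F c ∈ V) (hjV : j ∈ V) (hj'V : j' ∈ V)
    (hπV : ∀ v ∈ V, algebraMap O F π₀ * v ≠ 1)
    (hsat₁ : ∀ v ∈ V, algebraMap O F π₀ * v ∈ chart O j → v ∈ chart O j)
    (hsat₂ : ∀ v ∈ V, algebraMap O F π₀ * v ∈ chart O j' → v ∈ chart O j')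
    (hsat₁₂ : ∀ v ∈ V, algebraMap O F π₀ * v ∈ chart₁₂ O j j' → v ∈ chart₁₂ O j j')
    (p : ℕ) (hp : p.Prime) (μ₀ : O) (hμ : μ₀ * (p : O) = 1)
    (hconstAll : ∀ g : F, (∀ y : F, y ^ p ≠ g) →
      ∀ x : AdjoinRoot (X ^ p - C g : F[X]), IsIntegral O x →
        ∃ c : O, algebraMap O (AdjoinRoot (X ^ p - C g : F[X])) c = x)
    (hconstF : ∀ x : F, IsIntegral O x → ∃ c : O, algebraMap O F c = x)
    (ζ₀ : O) (hζ₀ : IsPrimitiveRoot ζ₀ p)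
    (P₁ P₂ : Ideal V) [P₁.IsPrime] [P₂.IsPrime]
    (hπ₁ : (⟨algebraMap O F π₀, hOV π₀⟩ : V) ∈ P₁)
    (hπ₂ : (⟨algebraMap O F π₀, hOV π₀⟩ : V) ∈ P₂)
    (hcap : ∀ v : V, v ∈ P₁ → v ∈ P₂ → ∃ c ∈ V, (v : F) = algebraMap O F π₀ * c)
    (τ : F ≃+* F) (hτ₁ : ∀ b ∈ chart O j, τ b ∈ chart O j)
    (hτ₂ : ∀ b ∈ chart O j', τ b ∈ chart O j')
    (ε ε' : O) (hεε' : ε * ε' = 1)
    (hε : τ (algebraMap O F π₀) = algebraMap O F ε * algebraMap O F π₀)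
    (htriv : ∀ v ∈ V, ∃ c ∈ V, τ v - v = algebraMap O F π₀ * c)
    (hU : ∀ g : F, g ≠ 0 → τ g / g ∈ V ∧ g / τ g ∈ V)
    (n : ℕ) (f : F) (hf0 : f ≠ 0)
    (hLP₁ : ∀ 𝔫 : Ideal (chart O j).toSubring, 𝔫.IsMaximal →
      (⟨algebraMap O F π₀, (chart O j).algebraMap_mem π₀⟩ : (chart O j).toSubring) ∈ 𝔫 →
      ∃ d w₀ : F, d ≠ 0 ∧ w₀ ≠ 0 ∧ f = d ^ (p ^ n) * w₀ ∧
        InLoc (chart O j).toSubring (algebraMap O F π₀) 𝔫 w₀ ∧
        InLoc (chart O j).toSubring (algebraMap O F π₀) 𝔫 w₀⁻¹)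
    (hLP₂ : ∀ 𝔫 : Ideal (chart O j').toSubring, 𝔫.IsMaximal →
      (⟨algebraMap O F π₀, (chart O j').algebraMap_mem π₀⟩ : (chart O j').toSubring) ∈ 𝔫 →
      ∃ d w₀ : F, d ≠ 0 ∧ w₀ ≠ 0 ∧ f = d ^ (p ^ n) * w₀ ∧
        InLoc (chart O j').toSubring (algebraMap O F π₀) 𝔫 w₀ ∧
        InLoc (chart O j').toSubring (algebraMap O F π₀) 𝔫 w₀⁻¹) :
    ∃ g : F, g ^ (p ^ n) = secondDiff τ f := by
  have hBV₁ : (chart O j).toSubring ≤ V := by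
    intro y hy
    refine h26_closure_le (O := O) {j} V hVic hOV ?_ hy
    intro s hs
    rw [Set.mem_singleton_iff] at hs
    rw [hs]
    exact hjV
  have hBV₂ : (chart O j').toSubring ≤ V := by
    intro y hy
    refine h26_closure_le (O := O) {j'} V hVic hOV ?_ hy
    intro s hs
    rw [Set.mem_singleton_iff] at hs
    rw [hs]
    exact hj'V
  rcases h18_cross_exists π₀ hπ₀ j j' hjj' hj hfinF V hVic hOV hjV hj'V hsat₁ hsat₂ hsat₁₂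
      hconstF P₁ P₂ (Ideal.IsPrime.ne_top inferInstance) (Ideal.IsPrime.ne_top inferInstance)
      hπ₁ hπ₂ hcap with ⟨𝔫₀, h𝔫₀, hc₁, hc₂⟩ | ⟨𝔫₀, h𝔫₀, hc₁, hc₂⟩
  · haveI : 𝔫₀.IsPrime := h𝔫₀.isPrime
    have hπ𝔫₀ : (⟨algebraMap O F π₀, (chart O j).algebraMap_mem π₀⟩ :
        (chart O j).toSubring) ∈ 𝔫₀ := hc₁ _ (hOV π₀) hπ₁
    exact h26_ss_pow π₀ hπ₀ j j' hjj' hj hfinF V hVic hOV hjV hj'V hπV hsat₁ hsat₂ hsat₁₂ p hp
      μ₀ hμ hconstAll 𝔫₀ h𝔫₀ hπ𝔫₀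
      (fun v hv hreg hvp => h18_hunit (chart O j).toSubring V hBV₁
        (fun c => (chart O j).algebraMap_mem c) (algebraMap O F π₀) (hOV π₀) P₁ P₂ hπ₁ hπ₂ hcap
        p hp.pos μ₀ hμ ζ₀ hζ₀ 𝔫₀ (fun b => hc₁ b _) (fun b => hc₂ b _) v hv hreg hvp)
      τ hτ₁ hτ₂ ε ε' hεε' hε htriv hU n f hf0 hLP₁ hLP₂
  · haveI : 𝔫₀.IsPrime := h𝔫₀.isPrime
    have hπ𝔫₀ : (⟨algebraMap O F π₀, (chart O j').algebraMap_mem π₀⟩ :
        (chart O j').toSubring) ∈ 𝔫₀ := hc₁ _ (hOV π₀) hπ₁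
    have hsat₂₁ : ∀ v ∈ V, algebraMap O F π₀ * v ∈ chart₁₂ O j' j → v ∈ chart₁₂ O j' j :=
      fun v hv h => (h18_mem_chart₁₂_comm j j' v).mpr
        (hsat₁₂ v hv ((h18_mem_chart₁₂_comm j j' _).mp h))
    exact h26_ss_pow π₀ hπ₀ j' j (by rw [mul_comm]; exact hjj') hj' hfinF' V hVic hOV hj'V hjV
      hπV hsat₂ hsat₁ hsat₂₁ p hp
      μ₀ hμ hconstAll 𝔫₀ h𝔫₀ hπ𝔫₀
      (fun v hv hreg hvp => h18_hunit (chart O j').toSubring V hBV₂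
        (fun c => (chart O j').algebraMap_mem c) (algebraMap O F π₀) (hOV π₀) P₁ P₂ hπ₁ hπ₂ hcap
        p hp.pos μ₀ hμ ζ₀ hζ₀ 𝔫₀ (fun b => hc₁ b _) (fun b => hc₂ b _) v hv hreg hvp)
      τ hτ₂ hτ₁ ε ε' hεε' hε htriv hU n f hf0 hLP₂ hLP₁

/-- **The abstract second-difference theorem at prime powers**, the two components given by
valuation subrings `V₁, V₂ ⊇ V` in which `π₀` is a non-unit, with
`V ∩ 𝔪(V₁) ∩ 𝔪(V₂) ⊆ π₀ V`. -/
theorem h18_ss_pow_val (π₀ : O) (hπ₀ : Prime π₀) (j j' : F) (hjj' : j * j' = 1)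
    (hj : Transcendental O j) (hfinF : H26FinOver O j)
    (hj' : Transcendental O j') (hfinF' : H26FinOver O j')
    (V : Subring F) (hVic : ∀ y : F, IsIntegral V y → y ∈ V)
    (hOV : ∀ c : O, algebraMap O F c ∈ V) (hjV : j ∈ V) (hj'V : j' ∈ V)
    (hπV : ∀ v ∈ V, algebraMap O F π₀ * v ≠ 1)
    (hsat₁ : ∀ v ∈ V, algebraMap O F π₀ * v ∈ chart O j → v ∈ chart O j)
    (hsat₂ : ∀ v ∈ V, algebraMap O F π₀ * v ∈ chart O j' → v ∈ chart O j')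
    (hsat₁₂ : ∀ v ∈ V, algebraMap O F π₀ * v ∈ chart₁₂ O j j' → v ∈ chart₁₂ O j j')
    (p : ℕ) (hp : p.Prime) (μ₀ : O) (hμ : μ₀ * (p : O) = 1)
    (hconstAll : ∀ g : F, (∀ y : F, y ^ p ≠ g) →
      ∀ x : AdjoinRoot (X ^ p - C g : F[X]), IsIntegral O x →
        ∃ c : O, algebraMap O (AdjoinRoot (X ^ p - C g : F[X])) c = x)
    (hconstF : ∀ x : F, IsIntegral O x → ∃ c : O, algebraMap O F c = x)
    (ζ₀ : O) (hζ₀ : IsPrimitiveRoot ζ₀ p)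
    (V₁ V₂ : ValuationSubring F) (hV₁ : V ≤ V₁.toSubring) (hV₂ : V ≤ V₂.toSubring)
    (hπ₁ : algebraMap O F π₀ ∈ V₁.nonunits) (hπ₂ : algebraMap O F π₀ ∈ V₂.nonunits)
    (hcap : ∀ v ∈ V, v ∈ V₁.nonunits → v ∈ V₂.nonunits →
      ∃ c ∈ V, v = algebraMap O F π₀ * c)
    (τ : F ≃+* F) (hτ₁ : ∀ b ∈ chart O j, τ b ∈ chart O j)
    (hτ₂ : ∀ b ∈ chart O j', τ b ∈ chart O j')
    (ε ε' : O) (hεε' : ε * ε' = 1)
    (hε : τ (algebraMap O F π₀) = algebraMap O F ε * algebraMap O F π₀)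
    (htriv : ∀ v ∈ V, ∃ c ∈ V, τ v - v = algebraMap O F π₀ * c)
    (hU : ∀ g : F, g ≠ 0 → τ g / g ∈ V ∧ g / τ g ∈ V)
    (n : ℕ) (f : F) (hf0 : f ≠ 0)
    (hLP₁ : ∀ 𝔫 : Ideal (chart O j).toSubring, 𝔫.IsMaximal →
      (⟨algebraMap O F π₀, (chart O j).algebraMap_mem π₀⟩ : (chart O j).toSubring) ∈ 𝔫 →
      ∃ d w₀ : F, d ≠ 0 ∧ w₀ ≠ 0 ∧ f = d ^ (p ^ n) * w₀ ∧
        InLoc (chart O j).toSubring (algebraMap O F π₀) 𝔫 w₀ ∧
        InLoc (chart O j).toSubring (algebraMap O F π₀) 𝔫 w₀⁻¹)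
    (hLP₂ : ∀ 𝔫 : Ideal (chart O j').toSubring, 𝔫.IsMaximal →
      (⟨algebraMap O F π₀, (chart O j').algebraMap_mem π₀⟩ : (chart O j').toSubring) ∈ 𝔫 →
      ∃ d w₀ : F, d ≠ 0 ∧ w₀ ≠ 0 ∧ f = d ^ (p ^ n) * w₀ ∧
        InLoc (chart O j').toSubring (algebraMap O F π₀) 𝔫 w₀ ∧
        InLoc (chart O j').toSubring (algebraMap O F π₀) 𝔫 w₀⁻¹) :
    ∃ g : F, g ^ (p ^ n) = secondDiff τ f :=
  h18_ss_pow π₀ hπ₀ j j' hjj' hj hfinF hj' hfinF' V hVic hOV hjV hj'V hπV hsat₁ hsat₂ hsat₁₂ p hp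
    μ₀ hμ hconstAll hconstF ζ₀ hζ₀ (h18TraceIdeal V V₁ hV₁) (h18TraceIdeal V V₂ hV₂) hπ₁ hπ₂
    (fun v h₁ h₂ => hcap (v : F) v.2 h₁ h₂)
    τ hτ₁ hτ₂ ε ε' hεε' hε htriv hU n f hf0 hLP₁ hLP₂

end Fermat.Agent.S34x.Cross.H18
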